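/-
Project BAD, block LevelQ, sub-block LQ-PT / PT-A (owner helper139): vocabulary for the GENERIC
closed points of a chart with SEVERAL vertical valuations, all of them with `e = 1`.

Language: `S18/Defs.lean` (`IsUnif`, `chart`), `S36/BP/Defs.lean` (`RUnit`, `rad`, `locSub`, `Away`,
`IsPt`), `BAD/Model/Defs.lean` (`LeLoc`), `BAD/LevelQ/Defs.lean` (`IsMCoord`, `IsMVert`, `IsSep`).
-/
import Mathlib
import Fermat.Agent.S18.Defs
import Fermat.Agent.S36.BP.Defs
import Fermat.Agent.BAD.Model.Defs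
import Fermat.Agent.BAD.LevelQ.Defs

set_option autoImplicit false

noncomputable section

namespace Fermat.Agent.BAD.LevelQ

open Polynomial IntermediateField Fermat.Agent.S18 Fermat.Agent.S36.BP Fermat.Agent.BAD.Model

variable {K₀ F : Type*} [Field K₀] [Field F] [Algebra K₀ F]

/-- `S36.BP.IsPt` without the field `res` (no hypothesis on the residue field of `A₀`). -/
structure IsPt' (A₀ : ValuationSubring K₀) (R : Subring F) : Prop where
  add_rad : ∀ a ∈ rad R, ∀ b ∈ rad R, a + b ∈ rad R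
  const_mem : ∀ a ∈ A₀, algebraMap K₀ F a ∈ R
  const_rad : ∀ a : K₀, A₀.valuation a < 1 → algebraMap K₀ F a ∈ rad R
  intClosed : ∀ y : F, IsIntegral R y → y ∈ R
  noeth : IsNoetherianRing R

/-- What the local analysis uses about a closed point `R` of a model whose vertical valuation rings
are the `V c` (`BAD.Model.PtBase` for an arbitrary finite family, uniformiser `ϖ₀`). -/
structure PtBaseM (A₀ : ValuationSubring K₀) (ϖ₀ : K₀) {ι : Type*} (V : ι → ValuationSubring F)
    (R : Subring F) : Prop where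
  isPt' : IsPt' A₀ R
  leLoc_or_away : ∀ c, LeLoc R (V c) ∨ Away R (V c)
  not_all_away : ¬ ∀ c, Away R (V c)
  /-- the local `q`-expansion principle -/
  qep : ∀ y : F, algebraMap K₀ F ϖ₀ * y ∈ R → (∀ c, y ∈ V c ∨ Away R (V c)) → y ∈ R

/-- The hypotheses on the coordinate `z` and the vertical valuation rings `V c` (all `e = 1`). -/
structure MChart (A₀ : ValuationSubring K₀) (ϖ₀ : K₀) {ι : Type*} (V : ι → ValuationSubring F)
    (z : F) : Prop where
  vert : IsMVert A₀ ϖ₀ V K₀⟮z⟯
  coord : ∀ c, IsMCoord A₀ (V c) z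
  sep : IsSep V
  unif : ∀ c, IsUnif (V c) (algebraMap K₀ F ϖ₀)

/-- A primitive polynomial: coefficients in `A₀`, one of them a unit. -/
def IsPrimPoly (A₀ : ValuationSubring K₀) (p : K₀[X]) : Prop :=
  (∀ i, p.coeff i ∈ A₀) ∧ ∃ i, A₀.valuation (p.coeff i) = 1

/-- `R` is the local ring of a closed point of the special fibre `ϖ = 0` of `Spec B`. -/
def IsClosedPt (ϖ : F) (B R : Subring F) : Prop :=
  ∃ (𝔫 : Ideal B) (h : 𝔫.IsMaximal), (∀ ϖB : B, (ϖB : F) = ϖ → ϖB ∈ 𝔫) ∧
    (haveI := h; locSub B 𝔫) = R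

/-- The valuation ring `VV` dominates the local ring `R`. -/
def Dominates (VV : ValuationSubring F) (R : Subring F) : Prop :=
  (∀ r ∈ R, r ∈ VV) ∧ ∀ r ∈ rad R, VV.valuation r < 1

/-- The closed points of the special fibre of the model glued from the charts of `z` and `z⁻¹`. -/
def IsModelPt (A₀ : ValuationSubring K₀) (ϖ₀ : K₀) (z : F) (R : Subring F) : Prop :=
  IsClosedPt (algebraMap K₀ F ϖ₀) (chart A₀.toSubring z) R ∨
    IsClosedPt (algebraMap K₀ F ϖ₀) (chart A₀.toSubring z⁻¹) R

end Fermat.Agent.BAD.LevelQ
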