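/-
Project BAD, block LevelQ, LQ-PT / PT-A (architect helper139), node LQP-A4:
the three non-trivial fields of `PtBaseM` for the localisations of a chart.

SKETCH.  Mechanical adaptation of BAD/Model/Pre/PtBaseCore.lean (`leLoc_or_away`, `not_all_away`,
`qep`) from `Fin 3` to a finite `ι` (`Fintype.ofFinite`, products `∏ c, t c` and
`Finset.mul_prod_erase` as in `chart_loc`, Abs/Loc.lean; `Ideal.IsPrime.prod_mem_iff`).
Inputs: `chart_le`, `chart_qep` (Abs/Mem.lean), `chart_loc` (Abs/Loc.lean),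
`LocQep.exists_of_away`, `LocQep.exists_pow_mul_mem` (S36/BP/LocQep.lean).
`not_all_away` is EASIER than in PtBaseCore since e = 1 everywhere: b := ∏ a c ∉ 𝔫 has
`(V c).valuation b < 1` for all c, so b / ϖ₀ ∈ V c for all c (`div_mem_of_valuation_lt_one`,
Abs/Coord.lean), so b / ϖ₀ ∈ B by `chart_qep`, so b = ϖ₀ * (b / ϖ₀) ∈ 𝔫.
-/
import Fermat.Agent.BAD.LevelQ.Pt.Defs
import Fermat.Agent.BAD.LevelQ.Abs.Mem
import Fermat.Agent.BAD.LevelQ.Abs.Coord
import Fermat.Agent.BAD.LevelQ.Abs.Loc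
import Fermat.Agent.S36.BP.Loc.Basic
import Fermat.Agent.S36.BP.LocQep
import Fermat.Agent.S36.BP.Rad

set_option autoImplicit false
set_option linter.style.haveILetI false

noncomputable section

namespace Fermat.Agent.BAD.LevelQ

open Polynomial IntermediateField Fermat.Agent.S18 Fermat.Agent.S36.BP Fermat.Agent.BAD.Model

variable {K₀ F : Type*} [Field K₀] [Field F] [Algebra K₀ F]
variable {A₀ : ValuationSubring K₀} {ϖ₀ : K₀} {ι : Type*} {V : ι → ValuationSubring F} {z : F}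

theorem MChart.leLoc_or_away [Finite ι] [Nonempty ι] (H : MChart A₀ ϖ₀ V z)
    (𝔫 : Ideal (chart A₀.toSubring z)) [𝔫.IsPrime] (c : ι) :
    LeLoc (locSub (chart A₀.toSubring z) 𝔫) (V c) ∨ Away (locSub (chart A₀.toSubring z) 𝔫) (V c) := by
  have hpr : 𝔫.IsPrime := inferInstance
  have hB := chart_le H.vert (fun d => (H.coord d).mem) c
  have hloc := chart_loc H.vert H.coord H.sep (fun d => ⟨_, H.unif d⟩) c
  by_cases h : ∃ e : chart A₀.toSubring z, e ∉ 𝔫 ∧ (V c).valuation (e : F) < 1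
  · obtain ⟨e, he, hlt⟩ := h
    right
    refine ⟨e, rUnit_locSub_iff.mpr ⟨e, 1, he,
      fun h1 => hpr.ne_top ((Ideal.eq_top_iff_one _).2 h1), by simp⟩, hlt⟩
  · left
    simp only [not_exists, not_and, not_lt] at h
    have hone : ∀ e : chart A₀.toSubring z, e ∉ 𝔫 → (V c).valuation (e : F) = 1 := fun e he =>
      le_antisymm ((ValuationSubring.valuation_le_one_iff _ _).2 (hB _ e.2)) (h e he)
    refine ⟨?_, ?_⟩
    · rintro r ⟨a, s, hs, e⟩
      rw [← ValuationSubring.valuation_le_one_iff]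
      have h1 := congrArg (V c).valuation e
      rw [map_mul, hone s hs, mul_one] at h1
      rw [h1]
      exact (ValuationSubring.valuation_le_one_iff _ _).2 (hB _ a.2)
    · intro y hy
      obtain ⟨s, hs, hs1, hsy⟩ := hloc y hy
      exact ⟨s, le_locSub hs, hs1, le_locSub hsy⟩

theorem MChart.not_all_away [Finite ι] [Nonempty ι] (H : MChart A₀ ϖ₀ V z)
    (𝔫 : Ideal (chart A₀.toSubring z)) [𝔫.IsPrime]
    (h𝔫 : ∀ ϖB : chart A₀.toSubring z, (ϖB : F) = algebraMap K₀ F ϖ₀ → ϖB ∈ 𝔫) :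
    ¬ ∀ c, Away (locSub (chart A₀.toSubring z) 𝔫) (V c) := by
  classical
  have := Fintype.ofFinite ι
  have hpr : 𝔫.IsPrime := inferInstance
  intro hA
  have hBle : ∀ c, ∀ b ∈ chart A₀.toSubring z, b ∈ V c := fun c =>
    chart_le H.vert (fun d => (H.coord d).mem) c
  choose a ha1 ha2 using fun c => LocQep.exists_of_away (hBle c) (hA c)
  obtain ⟨b, hb⟩ : ∃ b : chart A₀.toSubring z, b = ∏ c, a c := ⟨_, rfl⟩
  have hbn : b ∉ 𝔫 := by
    intro h
    rw [hb] at h
    obtain ⟨c, -, hc⟩ := Ideal.IsPrime.prod_mem_iff.1 h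
    exact ha1 c hc
  have hbv : ∀ c, (V c).valuation (b : F) < 1 := by
    intro c
    have e : b = a c * ∏ d ∈ Finset.univ.erase c, a d := by
      rw [hb]
      exact (Finset.mul_prod_erase _ _ (Finset.mem_univ c)).symm
    rw [e, Subring.coe_mul, map_mul]
    exact lt_of_le_of_lt (mul_le_of_le_one_right'
      ((ValuationSubring.valuation_le_one_iff _ _).2 (hBle c _ (Subtype.property _)))) (ha2 c)
  have hϖ0 : algebraMap K₀ F ϖ₀ ≠ 0 := (H.unif (Classical.arbitrary ι)).ne_zero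
  have hy : (b : F) / algebraMap K₀ F ϖ₀ ∈ chart A₀.toSubring z := by
    apply chart_qep H.vert H.coord
    · rw [mul_div_cancel₀ _ hϖ0]
      exact b.2
    · intro c
      exact CoordAux.div_mem_of_valuation_lt_one (H.unif c) (hbv c)
  have hϖmem : algebraMap K₀ F ϖ₀ ∈ chart A₀.toSubring z := by
    have h1 := ChartBasic.aeval_mem_chart (A₀ := A₀) (x := z) (C ϖ₀) (fun i => by
      rw [coeff_C]
      split_ifs
      · exact H.vert.unif₀.mem
      · exact A₀.zero_mem)
    rwa [aeval_C] at h1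
  apply hbn
  have e : b = (⟨_, hϖmem⟩ : chart A₀.toSubring z) * ⟨_, hy⟩ := by
    apply Subtype.ext
    rw [Subring.coe_mul]
    show (b : F) = algebraMap K₀ F ϖ₀ * ((b : F) / algebraMap K₀ F ϖ₀)
    rw [mul_div_cancel₀ _ hϖ0]
  rw [e]
  exact 𝔫.mul_mem_right _ (h𝔫 _ rfl)

theorem MChart.qep_locSub [Finite ι] [Nonempty ι] (H : MChart A₀ ϖ₀ V z)
    (𝔫 : Ideal (chart A₀.toSubring z)) [𝔫.IsPrime] (y : F)
    (h1 : algebraMap K₀ F ϖ₀ * y ∈ locSub (chart A₀.toSubring z) 𝔫)
    (h2 : ∀ c, y ∈ V c ∨ Away (locSub (chart A₀.toSubring z) 𝔫) (V c)) :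
    y ∈ locSub (chart A₀.toSubring z) 𝔫 := by
  classical
  have := Fintype.ofFinite ι
  have hpr : 𝔫.IsPrime := inferInstance
  have hB : ∀ c, ∀ b ∈ chart A₀.toSubring z, b ∈ V c := fun c =>
    chart_le H.vert (fun d => (H.coord d).mem) c
  have ht : ∀ c, ∃ t : chart A₀.toSubring z, t ∉ 𝔫 ∧ (t : F) * y ∈ V c := by
    intro c
    rcases h2 c with hT | hA
    · refine ⟨1, fun h => hpr.ne_top ((Ideal.eq_top_iff_one _).2 h), ?_⟩
      rw [Subring.coe_one, one_mul]
      exact hT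
    · obtain ⟨a, ha, hlt⟩ := LocQep.exists_of_away (hB c) hA
      obtain ⟨k, hk⟩ := LocQep.exists_pow_mul_mem (H.unif c) hlt y
      refine ⟨a ^ k, fun h => ha (hpr.mem_of_pow_mem k h), ?_⟩
      rw [Subring.coe_pow]
      exact hk
  choose t ht1 ht2 using ht
  obtain ⟨a, s, hs, has⟩ := h1
  obtain ⟨T, hTdef⟩ : ∃ T : chart A₀.toSubring z, T = ∏ c, t c := ⟨_, rfl⟩
  have hT : T * s ∉ 𝔫 := by
    intro h
    rcases hpr.mem_or_mem h with h | h
    · rw [hTdef] at h
      obtain ⟨c, -, hc⟩ := Ideal.IsPrime.prod_mem_iff.1 h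
      exact ht1 c hc
    · exact hs h
  have hy' : ((T * s : chart A₀.toSubring z) : F) * y ∈ chart A₀.toSubring z := by
    apply chart_qep H.vert H.coord
    · have e : algebraMap K₀ F ϖ₀ * (((T * s : chart A₀.toSubring z) : F) * y)
          = ((T * a : chart A₀.toSubring z) : F) := by
        rw [Subring.coe_mul, Subring.coe_mul, ← has]
        ring
      rw [e]
      exact Subtype.property _
    · intro c
      have e1 : T = t c * ∏ d ∈ Finset.univ.erase c, t d := by
        rw [hTdef]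
        exact (Finset.mul_prod_erase _ _ (Finset.mem_univ c)).symm
      have e : ((T * s : chart A₀.toSubring z) : F) * y
          = (((∏ d ∈ Finset.univ.erase c, t d) * s : chart A₀.toSubring z) : F) *
            ((t c : F) * y) := by
        rw [e1, Subring.coe_mul, Subring.coe_mul, Subring.coe_mul]
        ring
      rw [e]
      exact (V c).mul_mem _ _ (hB c _ (Subtype.property _)) (ht2 c)
  exact ⟨⟨_, hy'⟩, T * s, hT, mul_comm _ _⟩

end Fermat.Agent.BAD.LevelQ
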