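/-
Project BAD, block LevelQ, LQ-PT / PT-A (architect helper139), node LQP-A3:
the local rings of the points of the special fibre of a chart are points (`IsPt'`, `IsPt`).

SKETCH.  Mechanical adaptation of `isPt_of_base` (BAD/Model/PreLoc.lean) = `PreModel.isPt`
(BAD/Model/Pre/IsPt.lean): replace `(q : K₀)` by `ϖ₀`; `hq : constToChart A₀ z ⟨ϖ₀, h₀.mem⟩ ∈ 𝔫` is
`h𝔫 _ (coe_constToChart ..)`; noetherianity: `chart_noeth` (Abs/Finite.lean) or
`isNoetherianRing_chart`.  `MChart.inv`: `IsMVert.inv` (Abs/Change.lean), `IsMCoord.inv`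
(Abs/Coord.lean).  `MChart.chart_le`: `chart_le` (Abs/Mem.lean).
-/
import Fermat.Agent.BAD.LevelQ.Pt.Defs
import Fermat.Agent.BAD.LevelQ.Abs.Mem
import Fermat.Agent.BAD.LevelQ.Abs.Coord
import Fermat.Agent.BAD.LevelQ.Abs.Change
import Fermat.Agent.BAD.LevelQ.Abs.Finite
import Fermat.Agent.S36.BP.Loc
import Fermat.Agent.S36.BP.Rad

set_option autoImplicit false
set_option linter.style.haveILetI false

noncomputable section

namespace Fermat.Agent.BAD.LevelQ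

open Polynomial IntermediateField Fermat.Agent.S18 Fermat.Agent.S36.BP Fermat.Agent.BAD.Model

variable {K₀ F : Type*} [Field K₀] [Field F] [Algebra K₀ F]
variable {A₀ : ValuationSubring K₀} {ϖ₀ : K₀} {ι : Type*} {V : ι → ValuationSubring F} {z : F}

theorem MChart.inv (H : MChart A₀ ϖ₀ V z) : MChart A₀ ϖ₀ V z⁻¹ :=
  ⟨H.vert.inv, fun c => (H.coord c).inv, H.sep, H.unif⟩

theorem MChart.chart_le (H : MChart A₀ ϖ₀ V z) (c : ι) : ∀ b ∈ chart A₀.toSubring z, b ∈ V c :=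
  LevelQ.chart_le H.vert (fun c => (H.coord c).mem) c

private theorem isPt_const_rad (h₀ : IsUnif A₀ ϖ₀) (𝔫 : Ideal (chart A₀.toSubring z)) [𝔫.IsPrime]
    (hq : constToChart A₀ z ⟨ϖ₀, h₀.mem⟩ ∈ 𝔫) (a : K₀) (ha : A₀.valuation a < 1) :
    algebraMap K₀ F a ∈ rad (locSub (chart A₀.toSubring z) 𝔫) := by
  obtain ⟨a', ha', e⟩ := exists_eq_unif_mul h₀ ha
  have h1 : constToChart A₀ z ⟨ϖ₀, h₀.mem⟩ * constToChart A₀ z ⟨a', ha'⟩ ∈ 𝔫 :=
    𝔫.mul_mem_right _ hq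
  have h2 := coe_mem_rad_locSub h1
  have h3 : ((constToChart A₀ z ⟨ϖ₀, h₀.mem⟩ * constToChart A₀ z ⟨a', ha'⟩ :
      chart A₀.toSubring z) : F) = algebraMap K₀ F a := by
    push_cast
    rw [coe_constToChart, coe_constToChart, e, map_mul]
  rwa [h3] at h2

theorem isPt'_locSub [CharZero K₀] (h₀ : IsUnif A₀ ϖ₀) (htr : Transcendental K₀ z)
    (hfin : FiniteDimensional K₀⟮z⟯ F) (𝔫 : Ideal (chart A₀.toSubring z)) [𝔫.IsPrime]
    (h𝔫 : ∀ ϖB : chart A₀.toSubring z, (ϖB : F) = algebraMap K₀ F ϖ₀ → ϖB ∈ 𝔫) :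
    IsPt' A₀ (locSub (chart A₀.toSubring z) 𝔫) := by
  have hq : constToChart A₀ z ⟨ϖ₀, h₀.mem⟩ ∈ 𝔫 := h𝔫 _ (coe_constToChart _)
  refine ⟨fun a ha b hb => add_mem_rad_locSub ha hb, ?_, isPt_const_rad h₀ 𝔫 hq, ?_, ?_⟩
  · intro a ha
    exact le_locSub (constToChart A₀ z ⟨a, ha⟩).2
  · exact mem_locSub_of_isIntegral (fun y hy => mem_chart_of_isIntegral_chart _ _ _ hy)
  · haveI := isNoetherianRing_chart h₀ htr hfin
    exact isNoetherianRing_locSub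

theorem isPt_locSub [CharZero K₀] (h₀ : IsUnif A₀ ϖ₀)
    (hac : IsAlgClosed (IsLocalRing.ResidueField A₀)) (htr : Transcendental K₀ z)
    (hfin : FiniteDimensional K₀⟮z⟯ F) (𝔫 : Ideal (chart A₀.toSubring z)) [𝔫.IsMaximal]
    (h𝔫 : ∀ ϖB : chart A₀.toSubring z, (ϖB : F) = algebraMap K₀ F ϖ₀ → ϖB ∈ 𝔫) :
    IsPt A₀ (locSub (chart A₀.toSubring z) 𝔫) := by
  have hq : constToChart A₀ z ⟨ϖ₀, h₀.mem⟩ ∈ 𝔫 := h𝔫 _ (coe_constToChart _)
  have hP := isPt'_locSub h₀ htr hfin 𝔫 h𝔫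
  have hres := exists_const_sub_mem h₀ hac htr hfin 𝔫 hq
  refine ⟨hP.add_rad, hP.const_mem, hP.const_rad, ?_, hP.intClosed, hP.noeth⟩
  rintro r ⟨b, s, hs, e⟩
  obtain ⟨β, hβ⟩ := hres b
  obtain ⟨σ, hσ⟩ := hres s
  have hs0 := coe_ne_zero_of_notMem hs
  -- `σ` is a unit of `A₀`
  have hσn : constToChart A₀ z σ ∉ 𝔫 := by
    intro h
    apply hs
    have := 𝔫.add_mem hσ h
    simpa using this
  have hσ0 : (σ : K₀) ≠ 0 := by
    intro h
    apply hσn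
    have : σ = 0 := Subtype.ext h
    rw [this, map_zero]
    exact 𝔫.zero_mem
  have hσu : ¬ A₀.valuation (σ : K₀) < 1 := by
    intro hlt
    obtain ⟨a', ha', e'⟩ := exists_eq_unif_mul h₀ hlt
    apply hσn
    have : σ = ⟨ϖ₀, h₀.mem⟩ * ⟨a', ha'⟩ := Subtype.ext e'
    rw [this, map_mul]
    exact 𝔫.mul_mem_right _ hq
  have hσinv : (σ : K₀)⁻¹ ∈ A₀ := by
    rw [← A₀.valuation_le_one_iff, map_inv₀]
    have h1 : A₀.valuation (σ : K₀) = 1 :=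
      le_antisymm ((A₀.valuation_le_one_iff _).mpr σ.2) (not_lt.mp hσu)
    rw [h1, inv_one]
  refine ⟨(β : K₀) * (σ : K₀)⁻¹, A₀.mul_mem _ _ β.2 hσinv, ?_⟩
  rw [mem_rad_locSub_iff]
  refine ⟨(b - constToChart A₀ z β) * constToChart A₀ z σ -
      constToChart A₀ z β * (s - constToChart A₀ z σ), s * constToChart A₀ z σ,
    𝔫.sub_mem (𝔫.mul_mem_right _ hβ) (𝔫.mul_mem_left _ hσ),
    fun h => (Ideal.IsPrime.mem_or_mem inferInstance h).elim hs hσn, ?_⟩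
  have hσF : algebraMap K₀ F (σ : K₀) ≠ 0 := (_root_.map_ne_zero _).mpr hσ0
  have key : (r - algebraMap K₀ F ((β : K₀) * (σ : K₀)⁻¹)) *
      ((s : F) * algebraMap K₀ F (σ : K₀)) =
      ((b : F) - algebraMap K₀ F (β : K₀)) * algebraMap K₀ F (σ : K₀) -
        algebraMap K₀ F (β : K₀) * ((s : F) - algebraMap K₀ F (σ : K₀)) := by
    rw [← e, map_mul, map_inv₀]
    field_simp
    ring
  exact key

theorem IsPt.isPt' {R : Subring F} (h : IsPt A₀ R) : IsPt' A₀ R :=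
  ⟨h.add_rad, h.const_mem, h.const_rad, h.intClosed, h.noeth⟩

end Fermat.Agent.BAD.LevelQ
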