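/-
Project BAD, block LevelQ, LQ-PT / PT-A (architect helper139), node LQP-A1:
a prime of a chart which contains `ϖ₀` and a primitive polynomial in `z` is maximal.
-/
import Fermat.Agent.BAD.LevelQ.Pt.Defs
import Fermat.Agent.BAD.LevelQ.Abs.Coord
import Fermat.Agent.BAD.LevelQ.Abs.Change
import Fermat.Agent.BAD.LevelQ.Abs.Tower
import Fermat.Agent.S18.Chart.Const
import Fermat.Agent.S18.Chart.Basic
import Fermat.Agent.S18.Chart.Overlap
import Fermat.Agent.S36.BP.Loc
import Fermat.Agent.S36.BP.Rad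

set_option autoImplicit false
set_option linter.style.haveILetI false

noncomputable section

namespace Fermat.Agent.BAD.LevelQ

open Polynomial IntermediateField Fermat.Agent.S18 Fermat.Agent.S36.BP Fermat.Agent.BAD.Model

variable {K₀ F : Type*} [Field K₀] [Field F] [Algebra K₀ F]
variable {A₀ : ValuationSubring K₀} {ϖ₀ : K₀} {ι : Type*} {V : ι → ValuationSubring F} {z : F}

private theorem max_coeff_mk (f : ℕ → K₀) (N n : ℕ) :
    (∑ i ∈ Finset.range N, C (f i) * X ^ i : K₀[X]).coeff n = if n < N then f n else 0 := by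
  rw [finsetSum_coeff]
  simp only [coeff_C_mul, coeff_X_pow, mul_ite, mul_one, mul_zero]
  rw [Finset.sum_ite_eq]
  simp

/-- A primitive polynomial is a unit times a monic polynomial, modulo `ϖ₀`. -/
theorem IsPrimPoly.exists_monic (h₀ : IsUnif A₀ ϖ₀) {p : K₀[X]} (hp : IsPrimPoly A₀ p) :
    ∃ (u : K₀) (P r : K₀[X]), A₀.valuation u = 1 ∧ P.Monic ∧ (∀ i, P.coeff i ∈ A₀) ∧
      (∀ i, r.coeff i ∈ A₀) ∧ p = C u * P + C ϖ₀ * r := by
  classical
  obtain ⟨hc, i₀, hi₀⟩ := hp
  set s : Finset ℕ := p.support.filter fun i => A₀.valuation (p.coeff i) = 1 with hs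
  have hne : s.Nonempty := by
    refine ⟨i₀, Finset.mem_filter.2 ⟨?_, hi₀⟩⟩
    rw [mem_support_iff]
    intro h
    rw [h, map_zero] at hi₀
    exact zero_ne_one hi₀
  obtain ⟨d, hd, hmax⟩ := Finset.exists_max_image s id hne
  have hd1 : A₀.valuation (p.coeff d) = 1 := (Finset.mem_filter.1 hd).2
  obtain ⟨hu0, -, huinv⟩ := val_eq_one_iff.1 hd1
  have hϖ0 : ϖ₀ ≠ 0 := h₀.ne_zero
  have hbig : ∀ i, d < i → p.coeff i / ϖ₀ ∈ A₀ := by
    intro i hi
    apply CoordAux.div_mem_of_valuation_lt_one h₀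
    refine lt_of_le_of_ne ((A₀.valuation_le_one_iff _).2 (hc i)) fun h1 => ?_
    have hmem : i ∈ s := by
      refine Finset.mem_filter.2 ⟨?_, h1⟩
      rw [mem_support_iff]
      intro h
      rw [h, map_zero] at h1
      exact zero_ne_one h1
    have := hmax i hmem
    simp only [id] at this
    omega
  refine ⟨p.coeff d, X ^ d + ∑ i ∈ Finset.range d, C (p.coeff i / p.coeff d) * X ^ i,
    ∑ i ∈ Finset.range (p.natDegree + 1), C (if d < i then p.coeff i / ϖ₀ else 0) * X ^ i,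
    hd1, ?_, ?_, ?_, ?_⟩
  · apply monic_X_pow_add
    rw [degree_lt_iff_coeff_zero]
    intro m hm
    rw [max_coeff_mk, if_neg (by omega)]
  · intro i
    rw [coeff_add, max_coeff_mk, coeff_X_pow]
    refine A₀.add_mem _ _ ?_ ?_
    · split_ifs
      · exact A₀.one_mem
      · exact A₀.zero_mem
    · split_ifs
      · rw [div_eq_mul_inv]
        exact A₀.mul_mem _ _ (hc i) huinv
      · exact A₀.zero_mem
  · intro i
    rw [max_coeff_mk]
    split_ifs with h1 h2
    · exact hbig i h2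
    · exact A₀.zero_mem
    · exact A₀.zero_mem
  · ext n
    rw [coeff_add, coeff_C_mul, coeff_C_mul, coeff_add, max_coeff_mk, max_coeff_mk, coeff_X_pow]
    rcases lt_trichotomy n d with h | h | h
    · rw [if_neg (by omega), if_pos h]
      have : ¬ d < n := by omega
      simp only [this, if_false, ite_self, mul_zero, add_zero, zero_add]
      field_simp
    · subst h
      simp
    · rw [if_neg (by omega), if_neg (by omega), if_pos h]
      by_cases h2 : n < p.natDegree + 1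
      · rw [if_pos h2]
        field_simp
        simp
      · rw [if_neg h2, coeff_eq_zero_of_natDegree_lt (by omega)]
        simp

private theorem max_coe_eval₂ (Q : A₀[X]) :
    ((Q.eval₂ (constToChart A₀ z) ⟨z, self_mem_chart _⟩ : chart A₀.toSubring z) : F) =
      aeval z (Q.map A₀.subtype) := by
  have h1 := hom_eval₂ Q (constToChart A₀ z) (chart A₀.toSubring z).subtype ⟨z, self_mem_chart _⟩
  have h2 : ((chart A₀.toSubring z).subtype.comp (constToChart A₀ z)) =
      (algebraMap K₀ F).comp A₀.subtype := rfl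
  rw [h2] at h1
  rw [aeval_def, eval₂_map]
  exact h1

/-- A prime of the chart containing `ϖ₀` and a primitive polynomial in `z` is maximal
(no hypothesis on `z`). -/
theorem isMaximal_of_isPrimPoly (h₀ : IsUnif A₀ ϖ₀) (𝔫 : Ideal (chart A₀.toSubring z))
    [𝔫.IsPrime] (h𝔫 : ∀ ϖB : chart A₀.toSubring z, (ϖB : F) = algebraMap K₀ F ϖ₀ → ϖB ∈ 𝔫)
    (p : K₀[X]) (hp : IsPrimPoly A₀ p)
    (hpz : ∀ b : chart A₀.toSubring z, (b : F) = aeval z p → b ∈ 𝔫) : 𝔫.IsMaximal := by
  obtain ⟨u, P, r, hu, hPm, hPc, hrc, e⟩ := hp.exists_monic h₀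
  obtain ⟨hu0, -, huinv⟩ := val_eq_one_iff.1 hu
  have hpB : aeval z p ∈ chart A₀.toSubring z := ChartBasic.aeval_mem_chart p hp.1
  have hPB : aeval z P ∈ chart A₀.toSubring z := ChartBasic.aeval_mem_chart P hPc
  have hrB : aeval z r ∈ chart A₀.toSubring z := ChartBasic.aeval_mem_chart r hrc
  have hϖn : constToChart A₀ z ⟨ϖ₀, h₀.mem⟩ ∈ 𝔫 := h𝔫 _ rfl
  have hPn : (⟨aeval z P, hPB⟩ : chart A₀.toSubring z) ∈ 𝔫 := by
    have h1 : (⟨aeval z p, hpB⟩ : chart A₀.toSubring z) ∈ 𝔫 := hpz _ rfl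
    have h3 : (⟨aeval z P, hPB⟩ : chart A₀.toSubring z) = constToChart A₀ z ⟨u⁻¹, huinv⟩ *
        (⟨aeval z p, hpB⟩ - constToChart A₀ z ⟨ϖ₀, h₀.mem⟩ * ⟨aeval z r, hrB⟩) := by
      apply Subtype.ext
      have huF : algebraMap K₀ F u ≠ 0 := (_root_.map_ne_zero _).2 hu0
      change aeval z P = algebraMap K₀ F u⁻¹ * (aeval z p - algebraMap K₀ F ϖ₀ * aeval z r)
      rw [e, map_add, map_mul, map_mul, aeval_C, aeval_C, map_inv₀]
      field_simp
      ring
    rw [h3]
    exact 𝔫.mul_mem_left _ (𝔫.sub_mem h1 (𝔫.mul_mem_right _ hϖn))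
  set S := chart A₀.toSubring z ⧸ 𝔫 with hS
  let φ : A₀ →+* S := (Ideal.Quotient.mk 𝔫).comp (constToChart A₀ z)
  letI : Algebra A₀ S := φ.toAlgebra
  let zB : chart A₀.toSubring z := ⟨z, self_mem_chart _⟩
  -- the class of a polynomial in `z`
  have hcls : ∀ Q : A₀[X], ∀ b : chart A₀.toSubring z, (b : F) = aeval z (Q.map A₀.subtype) →
      Ideal.Quotient.mk 𝔫 b = aeval (Ideal.Quotient.mk 𝔫 zB) Q := by
    intro Q b hb
    have h1 : b = Q.eval₂ (constToChart A₀ z) zB := Subtype.ext (hb.trans (max_coe_eval₂ Q).symm)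
    rw [h1, hom_eval₂]
    rfl
  have hzint : IsIntegral A₀ (Ideal.Quotient.mk 𝔫 zB) := by
    obtain ⟨P', hP'⟩ := change_exists_lift A₀ P hPc
    refine ⟨P', monic_of_injective (f := A₀.subtype) Subtype.val_injective (hP' ▸ hPm), ?_⟩
    have h1 := hcls P' ⟨aeval z P, hPB⟩ (by rw [hP'])
    rw [Ideal.Quotient.eq_zero_iff_mem.2 hPn] at h1
    exact h1.symm
  have hpoly : ∀ a : polyRing A₀.toSubring z, ∀ b : chart A₀.toSubring z, (b : F) = (a : F) →
      IsIntegral A₀ (Ideal.Quotient.mk 𝔫 b) := by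
    intro a b hb
    obtain ⟨Q, hQ, hQa⟩ := (mem_polyRing_iff _ z _).1 a.2
    obtain ⟨Q', hQ'⟩ := change_exists_lift A₀ Q hQ
    rw [hcls Q' b (by rw [hQ', hQa, hb])]
    have h2 := Subalgebra.aeval_coe (integralClosure A₀ S) ⟨_, hzint⟩ Q'
    rw [h2]
    exact Subtype.property _
  haveI : Algebra.IsIntegral A₀ S := by
    refine ⟨fun s => ?_⟩
    obtain ⟨b, rfl⟩ := Ideal.Quotient.mk_surjective s
    obtain ⟨G, hGm, hG⟩ := (mem_chart_iff_isIntegral _ _ _).1 b.2
    let incl : polyRing A₀.toSubring z →+* chart A₀.toSubring z :=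
      Subring.inclusion (polyRing_le_chart _ _)
    refine tow_isIntegral_of_monic_of_coeff (G.map ((Ideal.Quotient.mk 𝔫).comp incl))
      (hGm.map _) (fun n => ?_) _ ?_
    · rw [coeff_map]
      exact hpoly (G.coeff n) (incl (G.coeff n)) rfl
    · rw [eval_map, ← hom_eval₂]
      have h0 : G.eval₂ incl b = 0 := by
        apply Subtype.ext
        have h1 := hom_eval₂ G incl (chart A₀.toSubring z).subtype b
        exact h1.trans hG
      rw [h0, map_zero]
  haveI : IsDomain S := Ideal.Quotient.isDomain 𝔫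
  have hcomap : ((⊥ : Ideal S).comap (algebraMap A₀ S)).IsMaximal := by
    have hle : IsLocalRing.maximalIdeal A₀ ≤ (⊥ : Ideal S).comap (algebraMap A₀ S) := by
      intro a ha
      have hlt : A₀.valuation (a : K₀) < 1 := (A₀.valuation_lt_one_iff a).1 ha
      obtain ⟨a', ha', e'⟩ := exists_eq_unif_mul h₀ hlt
      have e'' : a = ⟨ϖ₀, h₀.mem⟩ * ⟨a', ha'⟩ := Subtype.ext e'
      rw [Ideal.mem_comap, Ideal.mem_bot]
      change Ideal.Quotient.mk 𝔫 (constToChart A₀ z a) = 0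
      rw [Ideal.Quotient.eq_zero_iff_mem, e'', map_mul]
      exact 𝔫.mul_mem_right _ hϖn
    have hne : (⊥ : Ideal S).comap (algebraMap A₀ S) ≠ ⊤ :=
      (Ideal.comap_isPrime (algebraMap A₀ S) ⊥).ne_top
    rw [← (IsLocalRing.maximalIdeal.isMaximal A₀).eq_of_le hne hle]
    exact IsLocalRing.maximalIdeal.isMaximal A₀
  exact (Ideal.bot_quotient_isMaximal_iff 𝔫).1
    (Ideal.isMaximal_of_isIntegral_of_isMaximal_comap (R := A₀) (⊥ : Ideal S) hcomap)

end Fermat.Agent.BAD.LevelQ
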