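/-
Project BAD, block LevelQ, LQ-PT / PT-A (architect helper139), node LQP-A2:
a maximal ideal of a chart contains a primitive polynomial in `z` (elementary Zariski lemma).

SKETCH.  If z ∈ 𝔫 take p = X.  Otherwise there is c ∈ B with z c - 1 ∈ 𝔫 (`Ideal.IsMaximal.exists_inv`).
c is integral over `polyRing A₀ z` (`mem_chart_iff_isIntegral`): c^n + ∑_{i<n} a_i c^i = 0 with
a_i = A_i(z), A_i with coefficients in A₀ (`mem_polyRing_iff`).  Multiply by z^n:
(z c)^n + ∑_{i<n} a_i z^(n-i) (z c)^i = 0; modulo 𝔫, z c ≡ 1, so Q(z) ∈ 𝔫 with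
Q := 1 + ∑_{i<n} A_i X^(n-i), whose constant coefficient is 1.
-/
import Fermat.Agent.BAD.LevelQ.Pt.Defs
import Fermat.Agent.S18.Chart.Const
import Fermat.Agent.S18.Chart.Basic

set_option autoImplicit false
set_option linter.style.haveILetI false

noncomputable section

namespace Fermat.Agent.BAD.LevelQ

open Polynomial IntermediateField Fermat.Agent.S18 Fermat.Agent.S36.BP Fermat.Agent.BAD.Model

variable {K₀ F : Type*} [Field K₀] [Field F] [Algebra K₀ F]
variable {A₀ : ValuationSubring K₀} {ϖ₀ : K₀} {ι : Type*} {V : ι → ValuationSubring F} {z : F}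

/-- A maximal ideal of the chart contains a primitive polynomial in `z` (no hypothesis on `z`). -/
theorem exists_isPrimPoly_of_isMaximal (𝔫 : Ideal (chart A₀.toSubring z)) [𝔫.IsMaximal] :
    ∃ p : K₀[X], IsPrimPoly A₀ p ∧ ∀ b : chart A₀.toSubring z, (b : F) = aeval z p → b ∈ 𝔫 := by
  let ψ : (A₀.toSubring)[X] →+* F :=
    (Polynomial.aeval z : K₀[X] →ₐ[K₀] F).toRingHom.comp (Polynomial.mapRingHom A₀.toSubring.subtype)
  have hψB : ∀ q, ψ q ∈ chart A₀.toSubring z := fun q => polyRing_le_chart _ _ ⟨q, rfl⟩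
  let f₀ : (A₀.toSubring)[X] →+* chart A₀.toSubring z := ψ.codRestrict _ hψB
  have hf₀ : ∀ q, ((f₀ q : chart A₀.toSubring z) : F) = aeval z (q.map A₀.toSubring.subtype) :=
    fun _ => rfl
  -- the chart is integral over the polynomial ring
  have hf : f₀.IsIntegral := by
    intro b
    obtain ⟨P, hP, hPb⟩ : IsIntegral (polyRing A₀.toSubring z) (b : F) := b.2
    let ρ : (A₀.toSubring)[X] →+* polyRing A₀.toSubring z :=
      ψ.codRestrict (polyRing A₀.toSubring z) (fun q => ⟨q, rfl⟩)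
    have hl : P ∈ Polynomial.lifts ρ := by
      rw [Polynomial.lifts_iff_coeff_lifts]
      intro i
      obtain ⟨q, hq⟩ := (P.coeff i).2
      exact ⟨q, Subtype.ext hq⟩
    obtain ⟨Q, hQ, -, hQm⟩ := Polynomial.lifts_and_natDegree_eq_and_monic hl hP
    refine ⟨Q, hQm, Subtype.ext ?_⟩
    have h1 : ((Q.eval₂ f₀ b : chart A₀.toSubring z) : F) = Q.eval₂ ψ (b : F) :=
      Polynomial.hom_eval₂ Q f₀ (chart A₀.toSubring z).subtype b
    rw [h1, ZeroMemClass.coe_zero, ← hPb, ← hQ, Polynomial.eval₂_map]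
    rfl
  have hm : (𝔫.comap f₀).IsMaximal := Ideal.isMaximal_comap_of_isIntegral_of_isMaximal' f₀ hf 𝔫
  by_cases hX : (X : (A₀.toSubring)[X]) ∈ 𝔫.comap f₀
  · refine ⟨X, ⟨fun i => ?_, 1, by simp⟩, fun b hb => ?_⟩
    · rw [coeff_X]
      split_ifs
      · exact A₀.one_mem
      · exact A₀.zero_mem
    · have : b = f₀ X := Subtype.ext (by rw [hb, hf₀, Polynomial.map_X])
      rw [this]
      exact hX
  · obtain ⟨g, i, hi, e⟩ := hm.exists_inv hX
    refine ⟨i.map A₀.toSubring.subtype, ⟨fun k => ?_, 0, ?_⟩, fun b hb => ?_⟩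
    · rw [coeff_map]
      exact (i.coeff k).2
    · have h0 : i.coeff 0 = 1 := by
        have := congrArg (fun r => Polynomial.coeff r 0) e
        simpa using this
      rw [coeff_map, h0, map_one, map_one]
    · have : b = f₀ i := Subtype.ext (by rw [hb, hf₀])
      rw [this]
      exact hi

end Fermat.Agent.BAD.LevelQ
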