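/-
Project BAD, block LevelQ, LQ-PT / PT-A (architect helper139), node LQP-A6:
the centre on the chart of `z` of a valuation ring `VV ⊊ V c` containing `A₀` and `z` is a closed
point of the special fibre.

SKETCH.  B := chart z ⊆ VV (`mem_chart_iff_forall_valuationSubring`, Abs/Valuative.lean, or
`LocQep.chart_le_of`).  𝔫 := {b : B | VV.valuation b < 1} is a prime ideal; R := locSub B 𝔫 is
dominated by VV (`mem_rad_locSub_iff`).  P := {b : B | (V c).valuation b < 1} is a prime ideal,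
P ≤ 𝔫 (y ≠ 0, (V c).valuation y < 1 ⇒ y⁻¹ ∉ V c ⇒ y⁻¹ ∉ VV ⇒ VV.valuation y < 1), ϖ₀ ∈ P.
P ≠ 𝔫: otherwise every s ∈ B with (V c).valuation s = 1 is a unit of VV, and `chart_loc`
(Abs/Loc.lean) gives V c ≤ VV, contradiction with hle, hne.  Take g ∈ 𝔫 \ P.
B is integral over A := polyRing A₀ z; `Ideal.exists_coeff_mem_comap_sdiff_comap_of_root_mem_sdiff`
(or by hand: in a monic equation ∑ a_i g^i = 0 take the smallest i₀ with (V c).valuation a_i₀ = 1;
then a_i₀ + g * (..) ∈ P) gives a ∈ A, a ∈ 𝔫, (V c).valuation a = 1.  a = p(z) with coefficients in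
A₀ (`mem_polyRing_iff`); p is primitive: otherwise all the coefficients are divisible by ϖ₀
(`exists_eq_unif_mul`, S36/BP/Loc.lean) and (V c).valuation (p(z)) < 1.
Conclude by `isMaximal_of_isPrimPoly`.
-/
import Fermat.Agent.BAD.LevelQ.Pt.Defs
import Fermat.Agent.BAD.LevelQ.Pt.Max
import Fermat.Agent.BAD.LevelQ.Abs.Mem
import Fermat.Agent.BAD.LevelQ.Abs.Coord
import Fermat.Agent.BAD.LevelQ.Abs.Loc
import Fermat.Agent.BAD.LevelQ.Abs.Valuative
import Fermat.Agent.S36.BP.Loc
import Fermat.Agent.S36.BP.LocQep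
import Fermat.Agent.S36.BP.Rad

set_option autoImplicit false
set_option linter.style.haveILetI false

noncomputable section

namespace Fermat.Agent.BAD.LevelQ

open Polynomial IntermediateField Fermat.Agent.S18 Fermat.Agent.S36.BP Fermat.Agent.BAD.Model

variable {K₀ F : Type*} [Field K₀] [Field F] [Algebra K₀ F]
variable {A₀ : ValuationSubring K₀} {ϖ₀ : K₀} {ι : Type*} {V : ι → ValuationSubring F} {z : F}

/-- the maximal ideal of the bigger valuation ring is contained in the maximal ideal of the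
smaller one. -/
private theorem Proper_val_lt_one {VV W : ValuationSubring F} (hle : VV ≤ W) {y : F}
    (hy : W.valuation y < 1) : VV.valuation y < 1 := by
  rcases eq_or_ne y 0 with rfl | hy0
  · rw [map_zero]; exact zero_lt_one
  by_contra h
  rw [not_lt] at h
  have h0 : 0 < VV.valuation y := zero_lt_iff.mpr ((Valuation.ne_zero_iff _).mpr hy0)
  have h1 : y⁻¹ ∈ VV := by
    rw [← VV.valuation_le_one_iff, map_inv₀]
    exact (inv_le_one₀ h0).mpr h
  have h2 := (W.valuation_le_one_iff _).mpr (hle h1)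
  have h0' : 0 < W.valuation y := zero_lt_iff.mpr ((Valuation.ne_zero_iff _).mpr hy0)
  rw [map_inv₀, inv_le_one₀ h0'] at h2
  exact absurd hy (not_lt.mpr h2)

/-- the centre of a valuation ring containing the subring `B`. -/
private def Proper_center (B : Subring F) (W : ValuationSubring F) (h : ∀ b ∈ B, b ∈ W) : Ideal B :=
  (IsLocalRing.maximalIdeal W).comap (Subring.inclusion (show B ≤ W.toSubring from h))

private theorem Proper_mem_center {B : Subring F} {W : ValuationSubring F} (h : ∀ b ∈ B, b ∈ W)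
    (b : B) : b ∈ Proper_center B W h ↔ W.valuation (b : F) < 1 := by
  rw [Proper_center, Ideal.mem_comap]
  exact W.valuation_lt_one_iff _

private theorem Proper_center_isPrime {B : Subring F} {W : ValuationSubring F}
    (h : ∀ b ∈ B, b ∈ W) : (Proper_center B W h).IsPrime :=
  Ideal.comap_isPrime _ _

/-- The centre on the chart of `z` of a valuation ring `VV ⊊ V c` containing `z`. -/
theorem MChart.exists_center [Finite ι] [Nonempty ι] (H : MChart A₀ ϖ₀ V z)
    (VV : ValuationSubring F) (hA : ∀ a ∈ A₀, algebraMap K₀ F a ∈ VV) (hz : z ∈ VV) (c : ι)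
    (hle : VV ≤ V c) (hne : VV ≠ V c) :
    ∃ R : Subring F, IsClosedPt (algebraMap K₀ F ϖ₀) (chart A₀.toSubring z) R ∧ Dominates VV R := by
  have h₀ := H.vert.unif₀
  have hBVV : ∀ b ∈ chart A₀.toSubring z, b ∈ VV := fun b hb =>
    (mem_chart_iff_forall_valuationSubring _ z b).mp hb VV hA hz
  have hBV : ∀ b ∈ chart A₀.toSubring z, b ∈ V c := fun b hb => hle (hBVV b hb)
  set 𝔫 : Ideal (chart A₀.toSubring z) := Proper_center _ VV hBVV with h𝔫def
  set P : Ideal (chart A₀.toSubring z) := Proper_center _ (V c) hBV with hPdef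
  have h𝔫p : 𝔫.IsPrime := Proper_center_isPrime hBVV
  have hPp : P.IsPrime := Proper_center_isPrime hBV
  have hm𝔫 : ∀ b : chart A₀.toSubring z, b ∈ 𝔫 ↔ VV.valuation (b : F) < 1 :=
    Proper_mem_center hBVV
  have hmP : ∀ b : chart A₀.toSubring z, b ∈ P ↔ (V c).valuation (b : F) < 1 :=
    Proper_mem_center hBV
  have hP𝔫 : P ≤ 𝔫 := fun b hb => (hm𝔫 b).mpr (Proper_val_lt_one hle ((hmP b).mp hb))
  -- an element of `𝔫` outside `P`
  obtain ⟨g, hg𝔫, hgP⟩ : ∃ g : chart A₀.toSubring z, g ∈ 𝔫 ∧ g ∉ P := by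
    by_contra hcon
    push Not at hcon
    apply hne
    refine le_antisymm hle fun y hy => ?_
    obtain ⟨s, hs, hs1, hsy⟩ := chart_loc H.vert H.coord H.sep (fun c => ⟨_, H.unif c⟩) c y hy
    have hs2 : VV.valuation s = 1 := by
      refine le_antisymm ((VV.valuation_le_one_iff _).mpr (hBVV s hs)) (not_lt.mp fun hlt => ?_)
      have := (hmP ⟨s, hs⟩).mp (hcon ⟨s, hs⟩ ((hm𝔫 ⟨s, hs⟩).mpr hlt))
      rw [hs1] at this
      exact lt_irrefl _ this
    have h1 := (VV.valuation_le_one_iff _).mpr (hBVV _ hsy)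
    rw [map_mul, hs2, one_mul] at h1
    exact (VV.valuation_le_one_iff _).mp h1
  -- going down to the polynomial ring
  obtain ⟨a, haA, ha𝔫, haP⟩ : ∃ a ∈ polyRing A₀.toSubring z, VV.valuation a < 1 ∧
      (V c).valuation a = 1 := by
    let f : polyRing A₀.toSubring z →+* chart A₀.toSubring z :=
      Subring.inclusion (polyRing_le_chart _ _)
    obtain ⟨p, hpm, hp0⟩ := (mem_chart_iff_isIntegral _ z _).mp g.2
    have hp0' : p.eval₂ f g = 0 := by
      apply Subtype.ext
      have h1 := Polynomial.hom_eval₂ p f (chart A₀.toSubring z).subtype g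
      exact h1.trans hp0
    obtain ⟨i, hi1, hi2⟩ := Ideal.exists_coeff_mem_comap_sdiff_comap_of_root_mem_sdiff (f := f)
      hP𝔫 (show g ∈ (𝔫 : Set _) \ P from ⟨hg𝔫, hgP⟩) (map_monic_ne_zero hpm)
      (by rw [hp0']; exact P.zero_mem)
    refine ⟨(p.coeff i : F), (p.coeff i).2, (hm𝔫 (f (p.coeff i))).mp hi1, ?_⟩
    refine le_antisymm ((ValuationSubring.valuation_le_one_iff _ _).mpr
      (hBV _ (f (p.coeff i)).2)) (not_lt.mp fun hlt => hi2 ((hmP (f (p.coeff i))).mpr hlt))
  obtain ⟨p, hp, rfl⟩ := (mem_polyRing_iff _ z a).mp haA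
  -- `p` is primitive
  have hprim : IsPrimPoly A₀ p := by
    refine ⟨hp, ?_⟩
    by_contra hcon
    push Not at hcon
    have hlt : ∀ i, A₀.valuation (p.coeff i) < 1 := fun i =>
      lt_of_le_of_ne ((A₀.valuation_le_one_iff _).mpr (hp i)) (hcon i)
    have hzV : z ∈ V c := hle hz
    have : (V c).valuation (aeval z p) < 1 := by
      rw [aeval_eq_sum_range]
      refine Valuation.map_sum_lt _ one_ne_zero fun i _ => ?_
      rw [Algebra.smul_def, map_mul]
      have h1 : (V c).valuation (algebraMap K₀ F (p.coeff i)) < 1 := by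
        have h2 := CoordAux.div_mem_of_valuation_lt_one h₀ (hlt i)
        have h3 : p.coeff i = ϖ₀ * (p.coeff i / ϖ₀) := by
          rw [mul_div_cancel₀ _ h₀.ne_zero]
        rw [h3, map_mul, map_mul]
        exact mul_lt_one_of_nonneg_of_lt_one_left zero_le (H.vert.lt_one c)
          ((ValuationSubring.valuation_le_one_iff _ _).mpr (H.vert.const_mem c _ h2))
      exact mul_lt_one_of_nonneg_of_lt_one_left zero_le h1
        ((ValuationSubring.valuation_le_one_iff _ _).mpr ((V c).pow_mem hzV i))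
    rw [haP] at this
    exact lt_irrefl _ this
  have hϖ : ∀ ϖB : chart A₀.toSubring z, (ϖB : F) = algebraMap K₀ F ϖ₀ → ϖB ∈ 𝔫 := by
    intro ϖB h
    rw [hm𝔫, h]
    exact Proper_val_lt_one hle (H.vert.lt_one c)
  have hmax : 𝔫.IsMaximal := isMaximal_of_isPrimPoly h₀ 𝔫 hϖ p hprim (by
    intro b hb
    rw [hm𝔫, hb]
    exact ha𝔫)
  have hunit : ∀ s : chart A₀.toSubring z, s ∉ 𝔫 → VV.valuation (s : F) = 1 := fun s hs =>
    le_antisymm ((VV.valuation_le_one_iff _).mpr (hBVV _ s.2))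
      (not_lt.mp fun hlt => hs ((hm𝔫 s).mpr hlt))
  refine ⟨locSub (chart A₀.toSubring z) 𝔫, ⟨𝔫, hmax, hϖ, rfl⟩, ?_, ?_⟩
  · rintro r ⟨a, s, hs, e⟩
    have h1 := congrArg VV.valuation e
    rw [map_mul, hunit s hs, mul_one] at h1
    rw [← VV.valuation_le_one_iff, h1]
    exact (VV.valuation_le_one_iff _).mpr (hBVV _ a.2)
  · intro r hr
    obtain ⟨a, s, ha, hs, e⟩ := mem_rad_locSub_iff.mp hr
    have h1 := congrArg VV.valuation e
    rw [map_mul, hunit s hs, mul_one] at h1
    rw [h1]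
    exact (hm𝔫 a).mp ha

end Fermat.Agent.BAD.LevelQ
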