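/-
Project BAD, block LevelQ, LQ-PT / PT-A (owner helper139): ASSEMBLY.
The closed points of the special fibre of the model glued from `chart A₀ z` and `chart A₀ z⁻¹`
(several vertical valuations, all `e = 1`): `PtBaseM`, `IsPt`, overlap, properness, separatedness.
-/
import Fermat.Agent.BAD.LevelQ.Pt.Defs
import Fermat.Agent.BAD.LevelQ.Pt.Max
import Fermat.Agent.BAD.LevelQ.Pt.MaxConv
import Fermat.Agent.BAD.LevelQ.Pt.IsPt
import Fermat.Agent.BAD.LevelQ.Pt.Base
import Fermat.Agent.BAD.LevelQ.Pt.Overlap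
import Fermat.Agent.BAD.LevelQ.Pt.Proper

set_option autoImplicit false
set_option linter.style.haveILetI false

noncomputable section

namespace Fermat.Agent.BAD.LevelQ

open Polynomial IntermediateField Fermat.Agent.S18 Fermat.Agent.S36.BP Fermat.Agent.BAD.Model

variable {K₀ F : Type*} [Field K₀] [Field F] [Algebra K₀ F]
variable {A₀ : ValuationSubring K₀} {ϖ₀ : K₀} {ι : Type*} {V : ι → ValuationSubring F} {z : F}

theorem MChart.transc [Nonempty ι] (H : MChart A₀ ϖ₀ V z) : Transcendental K₀ z :=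
  (H.coord (Classical.arbitrary ι)).transcendental

theorem MChart.ne_zero [Nonempty ι] (H : MChart A₀ ϖ₀ V z) : z ≠ 0 :=
  (H.coord (Classical.arbitrary ι)).ne_zero

/-- **`PtBaseM` for the localisations of a chart at the primes of the special fibre.** -/
theorem MChart.ptBaseM [CharZero K₀] [Finite ι] [Nonempty ι] (H : MChart A₀ ϖ₀ V z)
    (𝔫 : Ideal (chart A₀.toSubring z)) [𝔫.IsPrime]
    (h𝔫 : ∀ ϖB : chart A₀.toSubring z, (ϖB : F) = algebraMap K₀ F ϖ₀ → ϖB ∈ 𝔫) :
    PtBaseM A₀ ϖ₀ V (locSub (chart A₀.toSubring z) 𝔫) where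
  isPt' := isPt'_locSub H.vert.unif₀ H.transc H.vert.finite 𝔫 h𝔫
  leLoc_or_away := H.leLoc_or_away 𝔫
  not_all_away := H.not_all_away 𝔫 h𝔫
  qep := H.qep_locSub 𝔫

theorem IsClosedPt.ptBaseM [CharZero K₀] [Finite ι] [Nonempty ι] (H : MChart A₀ ϖ₀ V z)
    {R : Subring F} (hR : IsClosedPt (algebraMap K₀ F ϖ₀) (chart A₀.toSubring z) R) :
    PtBaseM A₀ ϖ₀ V R := by
  obtain ⟨𝔫, h, h𝔫, rfl⟩ := hR
  exact H.ptBaseM 𝔫 h𝔫

theorem IsClosedPt.isPt [CharZero K₀] [Nonempty ι] (H : MChart A₀ ϖ₀ V z)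
    (hac : IsAlgClosed (IsLocalRing.ResidueField A₀))
    {R : Subring F} (hR : IsClosedPt (algebraMap K₀ F ϖ₀) (chart A₀.toSubring z) R) :
    IsPt A₀ R := by
  obtain ⟨𝔫, h, h𝔫, rfl⟩ := hR
  exact isPt_locSub H.vert.unif₀ hac H.transc H.vert.finite 𝔫 h𝔫

/-- **Every closed point of the model is a `PtBaseM`.** -/
theorem IsModelPt.ptBaseM [CharZero K₀] [Finite ι] [Nonempty ι] (H : MChart A₀ ϖ₀ V z)
    {R : Subring F} (hR : IsModelPt A₀ ϖ₀ z R) : PtBaseM A₀ ϖ₀ V R :=
  hR.elim (IsClosedPt.ptBaseM H) (IsClosedPt.ptBaseM H.inv)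

/-- If the residue field of `A₀` is algebraically closed, every closed point is an `IsPt`. -/
theorem IsModelPt.isPt [CharZero K₀] [Nonempty ι] (H : MChart A₀ ϖ₀ V z)
    (hac : IsAlgClosed (IsLocalRing.ResidueField A₀))
    {R : Subring F} (hR : IsModelPt A₀ ϖ₀ z R) : IsPt A₀ R :=
  hR.elim (IsClosedPt.isPt H hac) (IsClosedPt.isPt H.inv hac)

theorem IsClosedPt.le {ϖ : F} {B R : Subring F} (hR : IsClosedPt ϖ B R) : B ≤ R := by
  obtain ⟨𝔫, h, -, rfl⟩ := hR
  exact le_locSub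

/-- **Overlap**: a closed point of the model is a point of the chart of `z`, or a point of the chart
of `z⁻¹` at which `z⁻¹` vanishes. -/
theorem IsModelPt.cases (h₀ : IsUnif A₀ ϖ₀) (hz : z ≠ 0) {R : Subring F}
    (hR : IsModelPt A₀ ϖ₀ z R) :
    IsClosedPt (algebraMap K₀ F ϖ₀) (chart A₀.toSubring z) R ∨
      (IsClosedPt (algebraMap K₀ F ϖ₀) (chart A₀.toSubring z⁻¹) R ∧ z⁻¹ ∈ rad R) := by
  rcases hR with hR | hR
  · exact Or.inl hR
  · have hzi : z⁻¹ ∈ R := hR.le (self_mem_chart _)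
    rcases runit_or_mem_rad hzi with hu | hr
    · left
      have := hu.inv_mem
      rw [inv_inv] at this
      exact isClosedPt_of_inv h₀ hz hR this
    · exact Or.inr ⟨hR, hr⟩

/-- **Properness**: every valuation ring `VV ⊊ V c` containing `A₀` dominates a closed point. -/
theorem MChart.proper [Finite ι] [Nonempty ι] (H : MChart A₀ ϖ₀ V z)
    (VV : ValuationSubring F) (hA : ∀ a ∈ A₀, algebraMap K₀ F a ∈ VV) (c : ι)
    (hle : VV ≤ V c) (hne : VV ≠ V c) :
    ∃ R : Subring F, IsModelPt A₀ ϖ₀ z R ∧ Dominates VV R := by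
  rcases VV.mem_or_inv_mem z with hz | hz
  · obtain ⟨R, hR, hd⟩ := H.exists_center VV hA hz c hle hne
    exact ⟨R, Or.inl hR, hd⟩
  · obtain ⟨R, hR, hd⟩ := H.inv.exists_center VV hA hz c hle hne
    exact ⟨R, Or.inr hR, hd⟩

/-- A component containing the point passes through it. -/
theorem PtBaseM.leLoc_of_le {R : Subring F} (h : PtBaseM A₀ ϖ₀ V R) {c : ι}
    (hle : ∀ r ∈ R, r ∈ V c) : LeLoc R (V c) := by
  rcases h.leLoc_or_away c with h1 | ⟨e, he, hlt⟩
  · exact h1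
  · exact absurd hlt (he.val_eq_one hle).not_lt

/-- The component `V c ⊇ VV` passes through the centre of `VV`. -/
theorem PtBaseM.leLoc_of_dominates {R : Subring F} (h : PtBaseM A₀ ϖ₀ V R)
    {VV : ValuationSubring F} {c : ι} (hle : VV ≤ V c) (hd : Dominates VV R) : LeLoc R (V c) :=
  h.leLoc_of_le fun r hr => hle (hd.1 r hr)

/-- Two closed points of the same chart dominated by the same valuation ring are equal. -/
theorem IsClosedPt.eq_of_dominates {ϖ : F} {B R R' : Subring F} (hR : IsClosedPt ϖ B R)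
    (hR' : IsClosedPt ϖ B R') {VV : ValuationSubring F} (hd : Dominates VV R)
    (hd' : Dominates VV R') : R = R' := by
  obtain ⟨𝔫, h, -, rfl⟩ := hR
  obtain ⟨𝔫', h', -, rfl⟩ := hR'
  have key : ∀ (𝔪 : Ideal B) (hm : 𝔪.IsMaximal), (haveI := hm; Dominates VV (locSub B 𝔪)) →
      ∀ b : B, b ∈ 𝔪 ↔ VV.valuation (b : F) < 1 := by
    intro 𝔪 hm hdm b
    constructor
    · intro hb
      exact hdm.2 _ (coe_mem_rad_locSub hb)
    · intro hb
      by_contra hbn
      have h1 : (b : F)⁻¹ ∈ VV := hdm.1 _ (inv_mem_locSub hbn)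
      have h2 := (VV.valuation_le_one_iff _).2 h1
      have h0 : (b : F) ≠ 0 := coe_ne_zero_of_notMem hbn
      have h3 : VV.valuation ((b : F) * (b : F)⁻¹) < 1 := by
        rw [map_mul]
        exact mul_lt_one_of_lt_of_le hb h2
      rw [mul_inv_cancel₀ h0, map_one] at h3
      exact lt_irrefl _ h3
  have : 𝔫 = 𝔫' := Ideal.ext fun b => (key 𝔫 h hd b).trans (key 𝔫' h' hd' b).symm
  subst this
  rfl

/-- **Separatedness**: a valuation ring dominates at most one closed point of the model. -/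
theorem IsModelPt.eq_of_dominates (h₀ : IsUnif A₀ ϖ₀) (hz : z ≠ 0) {R R' : Subring F}
    (hR : IsModelPt A₀ ϖ₀ z R) (hR' : IsModelPt A₀ ϖ₀ z R') {VV : ValuationSubring F}
    (hd : Dominates VV R) (hd' : Dominates VV R') : R = R' := by
  have aux : ∀ {S S' : Subring F}, IsClosedPt (algebraMap K₀ F ϖ₀) (chart A₀.toSubring z) S →
      z⁻¹ ∈ rad S' → Dominates VV S → Dominates VV S' → False := by
    intro S S' hS hS' hdS hdS'
    have h1 : z ∈ VV := hdS.1 _ (hS.le (self_mem_chart _))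
    have h2 := (VV.valuation_le_one_iff _).2 h1
    have h3 : VV.valuation (z⁻¹ * z) < 1 := by
      rw [map_mul]
      exact mul_lt_one_of_lt_of_le (hdS'.2 _ hS') h2
    rw [inv_mul_cancel₀ hz, map_one] at h3
    exact lt_irrefl _ h3
  rcases hR.cases h₀ hz with h1 | ⟨h1, h1'⟩ <;> rcases hR'.cases h₀ hz with h2 | ⟨h2, h2'⟩
  · exact h1.eq_of_dominates h2 hd hd'
  · exact (aux h1 h2' hd hd').elim
  · exact (aux h2 h1' hd' hd).elim
  · exact h1.eq_of_dominates h2 hd hd'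

end Fermat.Agent.BAD.LevelQ
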