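/-
Project BAD, block LevelQ, sub-block LQ-PT / PT-CENTRE (helper97): THE COMPOSITE VALUATION RING.

`Va` a valuation ring of `E`, `ρ : Va →+* κ` a ring homomorphism to a field killing the nonunits
(= the reduction map), `W` a valuation ring of `κ`.  Then `compVal Va ρ hρ W = {z ∈ Va | ρ z ∈ W}`
is a valuation ring of `E`, contained in `Va`.  Abstract file: Mathlib only.
-/
import Mathlib

set_option autoImplicit false

noncomputable section

namespace Fermat.Agent.BAD.LevelQ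

variable {E κ : Type*} [Field E] [Field κ]

/-- The composite of the valuation ring `Va` with the valuation ring `W` of (an extension of) its
residue field. -/
def compVal (Va : ValuationSubring E) (ρ : Va →+* κ)
    (hρ : ∀ z : Va, Va.valuation (z : E) < 1 → ρ z = 0) (W : ValuationSubring κ) :
    ValuationSubring E where
  carrier := {z | ∃ h : z ∈ Va, ρ ⟨z, h⟩ ∈ W}
  mul_mem' := by
    rintro a b ⟨ha, ha'⟩ ⟨hb, hb'⟩
    refine ⟨Va.mul_mem _ _ ha hb, ?_⟩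
    have e : (⟨a * b, Va.mul_mem _ _ ha hb⟩ : Va) = ⟨a, ha⟩ * ⟨b, hb⟩ := rfl
    rw [e, map_mul]
    exact W.mul_mem _ _ ha' hb'
  one_mem' := by
    refine ⟨Va.one_mem, ?_⟩
    have e : (⟨1, Va.one_mem⟩ : Va) = 1 := rfl
    rw [e, map_one]
    exact W.one_mem
  add_mem' := by
    rintro a b ⟨ha, ha'⟩ ⟨hb, hb'⟩
    refine ⟨Va.add_mem _ _ ha hb, ?_⟩
    have e : (⟨a + b, Va.add_mem _ _ ha hb⟩ : Va) = ⟨a, ha⟩ + ⟨b, hb⟩ := rfl
    rw [e, map_add]
    exact W.add_mem _ _ ha' hb'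
  zero_mem' := by
    refine ⟨Va.zero_mem, ?_⟩
    have e : (⟨0, Va.zero_mem⟩ : Va) = 0 := rfl
    rw [e, map_zero]
    exact W.zero_mem
  neg_mem' := by
    rintro a ⟨ha, ha'⟩
    refine ⟨Va.neg_mem _ ha, ?_⟩
    have e : (⟨-a, Va.neg_mem _ ha⟩ : Va) = -⟨a, ha⟩ := rfl
    rw [e, map_neg]
    exact W.neg_mem _ ha'
  mem_or_inv_mem' := by
    intro z
    by_cases hz0 : z = 0
    · left
      subst hz0
      refine ⟨Va.zero_mem, ?_⟩
      have e : (⟨0, Va.zero_mem⟩ : Va) = 0 := rfl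
      rw [e, map_zero]
      exact W.zero_mem
    have hv0 : Va.valuation z ≠ 0 := (Va.valuation.ne_zero_iff).mpr hz0
    rcases lt_trichotomy (Va.valuation z) 1 with h | h | h
    · left
      have hz : z ∈ Va := (Va.valuation_le_one_iff z).1 h.le
      exact ⟨hz, by rw [hρ ⟨z, hz⟩ h]; exact W.zero_mem⟩
    · have hz : z ∈ Va := (Va.valuation_le_one_iff z).1 h.le
      have hz' : z⁻¹ ∈ Va := (Va.valuation_le_one_iff _).1 (by rw [map_inv₀, h, inv_one])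
      have e : ρ ⟨z, hz⟩ * ρ ⟨z⁻¹, hz'⟩ = 1 := by
        rw [← map_mul]
        have : (⟨z, hz⟩ : Va) * ⟨z⁻¹, hz'⟩ = 1 := Subtype.ext (mul_inv_cancel₀ hz0)
        rw [this, map_one]
      have e' : ρ ⟨z⁻¹, hz'⟩ = (ρ ⟨z, hz⟩)⁻¹ := eq_inv_of_mul_eq_one_right e
      rcases W.mem_or_inv_mem (ρ ⟨z, hz⟩) with h1 | h1
      · exact Or.inl ⟨hz, h1⟩
      · exact Or.inr ⟨hz', by rw [e']; exact h1⟩
    · right
      have h' : Va.valuation z⁻¹ < 1 := by
        rw [map_inv₀]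
        exact inv_lt_one_of_one_lt₀ h
      have hz : z⁻¹ ∈ Va := (Va.valuation_le_one_iff _).1 h'.le
      exact ⟨hz, by rw [hρ ⟨z⁻¹, hz⟩ h']; exact W.zero_mem⟩

variable {Va : ValuationSubring E} {ρ : Va →+* κ}
  {hρ : ∀ z : Va, Va.valuation (z : E) < 1 → ρ z = 0} {W : ValuationSubring κ}

theorem mem_compVal {z : E} : z ∈ compVal Va ρ hρ W ↔ ∃ h : z ∈ Va, ρ ⟨z, h⟩ ∈ W := Iff.rfl

theorem compVal_le : compVal Va ρ hρ W ≤ Va := fun _ hz => hz.1

theorem mem_compVal_of_lt_one {z : E} (h : Va.valuation z < 1) : z ∈ compVal Va ρ hρ W := by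
  have hz : z ∈ Va := (Va.valuation_le_one_iff z).1 h.le
  exact ⟨hz, by rw [hρ ⟨z, hz⟩ h]; exact W.zero_mem⟩

theorem compVal_ne {z : Va} (hz : ρ z ∉ W) : compVal Va ρ hρ W ≠ Va := by
  intro h
  have h1 : (z : E) ∈ compVal Va ρ hρ W := by rw [h]; exact z.2
  obtain ⟨_, h2⟩ := h1
  exact hz h2

/-- an element of `E` which is a unit of the composite reduces to a unit of `W`. -/
theorem valuation_eq_one_of_mem_compVal {z : E} (h : z ∈ compVal Va ρ hρ W)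
    (h' : z⁻¹ ∈ compVal Va ρ hρ W) (hz0 : z ≠ 0) : W.valuation (ρ ⟨z, h.1⟩) = 1 := by
  obtain ⟨hz, h1⟩ := h
  obtain ⟨hz', h2⟩ := h'
  have e : ρ ⟨z, hz⟩ * ρ ⟨z⁻¹, hz'⟩ = 1 := by
    rw [← map_mul]
    have : (⟨z, hz⟩ : Va) * ⟨z⁻¹, hz'⟩ = 1 := Subtype.ext (mul_inv_cancel₀ hz0)
    rw [this, map_one]
  have a1 := (W.valuation_le_one_iff _).2 h1
  have a2 := (W.valuation_le_one_iff _).2 h2
  have a3 : W.valuation (ρ ⟨z, hz⟩) * W.valuation (ρ ⟨z⁻¹, hz'⟩) = 1 := by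
    rw [← map_mul, e, map_one]
  refine le_antisymm a1 ?_
  calc (1 : _) = W.valuation (ρ ⟨z, hz⟩) * W.valuation (ρ ⟨z⁻¹, hz'⟩) := a3.symm
    _ ≤ W.valuation (ρ ⟨z, hz⟩) * 1 := by gcongr
    _ = _ := mul_one _

/-- the maximal ideal of the composite. -/
theorem valuation_compVal_lt_one_iff {z : E} :
    (compVal Va ρ hρ W).valuation z < 1 ↔ ∃ h : z ∈ Va, W.valuation (ρ ⟨z, h⟩) < 1 := by
  by_cases hz0 : z = 0
  · subst hz0
    simp only [map_zero, zero_lt_one, true_iff]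
    refine ⟨Va.zero_mem, ?_⟩
    have e : (⟨0, Va.zero_mem⟩ : Va) = 0 := rfl
    rw [e, map_zero, map_zero]
    exact zero_lt_one
  have key : (compVal Va ρ hρ W).valuation z < 1 ↔ z⁻¹ ∉ compVal Va ρ hρ W := by
    rw [← ValuationSubring.valuation_le_one_iff, map_inv₀, not_le]
    have hv0 : (compVal Va ρ hρ W).valuation z ≠ 0 := (Valuation.ne_zero_iff _).mpr hz0
    rw [one_lt_inv₀ (zero_lt_iff.2 hv0)]
  rw [key]
  constructor
  · intro h
    have hz : z ∈ compVal Va ρ hρ W := ((compVal Va ρ hρ W).mem_or_inv_mem z).resolve_right h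
    refine ⟨hz.1, ?_⟩
    by_contra hcon
    have h1 : W.valuation (ρ ⟨z, hz.1⟩) = 1 :=
      le_antisymm ((W.valuation_le_one_iff _).2 hz.2) (not_lt.1 hcon)
    have hne : ρ ⟨z, hz.1⟩ ≠ 0 := by
      intro h0
      rw [h0, map_zero] at h1
      exact zero_ne_one h1
    have hva : Va.valuation z = 1 := by
      refine le_antisymm ((Va.valuation_le_one_iff _).2 hz.1) (not_lt.1 fun hlt => ?_)
      exact hne (hρ ⟨z, hz.1⟩ hlt)
    have hz' : z⁻¹ ∈ Va := (Va.valuation_le_one_iff _).1 (by rw [map_inv₀, hva, inv_one])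
    have e : ρ ⟨z, hz.1⟩ * ρ ⟨z⁻¹, hz'⟩ = 1 := by
      rw [← map_mul]
      have : (⟨z, hz.1⟩ : Va) * ⟨z⁻¹, hz'⟩ = 1 := Subtype.ext (mul_inv_cancel₀ hz0)
      rw [this, map_one]
    apply h
    refine ⟨hz', ?_⟩
    rw [eq_inv_of_mul_eq_one_right e, ← W.valuation_le_one_iff, map_inv₀, h1, inv_one]
  · rintro ⟨hz, hlt⟩ ⟨hz', h2⟩
    have e : ρ ⟨z, hz⟩ * ρ ⟨z⁻¹, hz'⟩ = 1 := by
      rw [← map_mul]
      have : (⟨z, hz⟩ : Va) * ⟨z⁻¹, hz'⟩ = 1 := Subtype.ext (mul_inv_cancel₀ hz0)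
      rw [this, map_one]
    have a2 := (W.valuation_le_one_iff _).2 h2
    have a3 : W.valuation (ρ ⟨z, hz⟩) * W.valuation (ρ ⟨z⁻¹, hz'⟩) = 1 := by
      rw [← map_mul, e, map_one]
    have : W.valuation (ρ ⟨z, hz⟩) * W.valuation (ρ ⟨z⁻¹, hz'⟩) < 1 :=
      lt_of_le_of_lt (mul_le_of_le_one_right' a2) hlt
    rw [a3] at this
    exact lt_irrefl _ this

end Fermat.Agent.BAD.LevelQ

end
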