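/-
Project BAD, block LevelQ / LQ-PT, sub-block PT-CUSP (B5)+(B6) (helper225; blueprint helper39).

The cuspidal points of the model of level `M q` lie on ONE component.

Input: the hub `H : LQ A₀ ϖ₀ q al be w γ Ow' V x'` with `x' = j`, i.e. together with the modular
equation `Rel q c (al x')⁻¹ (be x')⁻¹` (`BAD/Model/Defs.lean`; providers `BAD/Model/Phi/Export.lean`,
`Lib/ModEq`).  The two cusp congruences `s ^ q / s' ≡ 1` on `V 0`, `s' ^ q / s ≡ 1` on `V 1`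
(`s = (al x')⁻¹`, `s' = (be x')⁻¹`) are CONSEQUENCES of `H.kron`, `H.γ_x`.

A point is any subring `R` of `F` with `IsPt A₀ R` (`S36/BP/Defs.lean`).
-/
import Fermat.Agent.BAD.LevelQ.Hub.Basic
import Fermat.Agent.BAD.LevelQ.Hub.Nor
import Fermat.Agent.BAD.Model.Cusp.Dichotomy
import Fermat.Agent.BAD.Model.Pre.Overlap

set_option autoImplicit false

noncomputable section

namespace Fermat.Agent.BAD.LevelQ

open Polynomial IntermediateField Fermat.Agent.S18 Fermat.Agent.S36.BP Fermat.Agent.BAD.Model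

variable {K₀ F' F : Type*} [Field K₀] [Field F'] [Field F] [Algebra K₀ F'] [Algebra K₀ F]
variable {A₀ : ValuationSubring K₀} {ϖ₀ : K₀} {q : ℕ} {al be : F' →ₐ[K₀] F} {w : F ≃ₐ[K₀] F}
  {γ : F' →+* F'} {Ow' : ValuationSubring F'} {V : Fin 2 → ValuationSubring F} {x' : F'}
  {R : Subring F} {c : ℕ → ℕ → K₀}

/-! ### The abstract statement (B5) -/

/-- **(B5), abstract form.**  `s = 1/j(z)`, `s' = 1/j(qz)`. -/
theorem cusp_away_of_rel {W₀ W₁ : ValuationSubring F} {s s' : F} (hR : IsPt A₀ R) (hq : 2 ≤ q)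
    (hc : ∀ a b, c a b ∈ A₀) (h0 : A₀.valuation (c 0 0) = 1) (h : Rel q c s s')
    (hs0 : s ≠ 0) (hs0' : s' ≠ 0)
    (cong0 : W₀.valuation (s ^ q / s' - 1) < 1) (cong1 : W₁.valuation (s' ^ q / s - 1) < 1)
    (hs : s ∈ rad R) :
    (RUnit R (s ^ q / s') ∧ Away R W₁) ∨ (RUnit R (s' ^ q / s) ∧ Away R W₀) := by
  rcases h.dichotomy hR hq hc h0 hs0 hs0' hs with ⟨a1, a2⟩ | ⟨a1, a2⟩
  · exact Or.inl ⟨a1, away_of_mem_rad hR a2 cong1⟩
  · exact Or.inr ⟨a1, away_of_mem_rad hR a2 cong0⟩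

/-! ### The cusp congruences from Kronecker's congruence -/

theorem val_div_sub_one_lt {W : ValuationSubring F} {a b : F} (ha : W.valuation a = 1)
    (h : W.valuation (b - a) < 1) : W.valuation (b / a - 1) < 1 := by
  have ha0 : a ≠ 0 := fun h0 => by rw [h0, map_zero] at ha; exact zero_ne_one ha
  have e : b / a - 1 = (b - a) / a := by field_simp
  rw [e, map_div₀, ha, div_one]
  exact h

theorem LQ.val_al_x (H : LQ A₀ ϖ₀ q al be w γ Ow' V x') (i : Fin 2) :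
    (V i).valuation (al x') = 1 := (H.isMCoord_al i).valuation_eq_one

theorem LQ.val_be_x (H : LQ A₀ ϖ₀ q al be w γ Ow' V x') (i : Fin 2) :
    (V i).valuation (be x') = 1 := (H.isMCoord_be i).valuation_eq_one

theorem LQ.al_x_ne_zero (H : LQ A₀ ϖ₀ q al be w γ Ow' V x') : al x' ≠ 0 :=
  (H.isMCoord_al 0).ne_zero

theorem LQ.be_x_ne_zero (H : LQ A₀ ϖ₀ q al be w γ Ow' V x') : be x' ≠ 0 :=
  (H.isMCoord_be 0).ne_zero

/-- `s ^ q / s' ≡ 1` on `V 0`. -/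
theorem LQ.cusp_kron_zero (H : LQ A₀ ϖ₀ q al be w γ Ow' V x') :
    (V 0).valuation ((al x')⁻¹ ^ q / (be x')⁻¹ - 1) < 1 := by
  have h := H.kron x' H.coord'.mem
  rw [H.γ_x] at h
  have e : (al x')⁻¹ ^ q / (be x')⁻¹ = be x' / al x' ^ q := by
    rw [inv_pow, div_inv_eq_mul, mul_comm, div_eq_mul_inv]
  rw [e]
  exact val_div_sub_one_lt (by rw [map_pow, H.val_al_x, one_pow]) h

/-- `s' ^ q / s ≡ 1` on `V 1`. -/
theorem LQ.cusp_kron_one (H : LQ A₀ ϖ₀ q al be w γ Ow' V x') :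
    (V 1).valuation ((be x')⁻¹ ^ q / (al x')⁻¹ - 1) < 1 := by
  have h := H.kron_one x' H.coord'.mem
  rw [H.γ_x] at h
  have e : (be x')⁻¹ ^ q / (al x')⁻¹ = al x' / be x' ^ q := by
    rw [inv_pow, div_inv_eq_mul, mul_comm, div_eq_mul_inv]
  rw [e]
  exact val_div_sub_one_lt (by rw [map_pow, H.val_be_x, one_pow]) h

/-! ### (B5) for the hub -/

/-- **(B5).**  A point where `1/j(z)` vanishes lies on one component only. -/
theorem LQ.cusp_al (H : LQ A₀ ϖ₀ q al be w γ Ow' V x') (hc : ∀ a b, c a b ∈ A₀)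
    (h0 : A₀.valuation (c 0 0) = 1) (hrel : Rel q c (al x')⁻¹ (be x')⁻¹) (hR : IsPt A₀ R)
    (hs : (al x')⁻¹ ∈ rad R) :
    (RUnit R ((al x')⁻¹ ^ q / (be x')⁻¹) ∧ Away R (V 1)) ∨
      (RUnit R ((be x')⁻¹ ^ q / (al x')⁻¹) ∧ Away R (V 0)) :=
  cusp_away_of_rel hR H.prime.two_le hc h0 hrel (inv_ne_zero H.al_x_ne_zero)
    (inv_ne_zero H.be_x_ne_zero) H.cusp_kron_zero H.cusp_kron_one hs

/-- `1/j(z)` vanishes at `R` iff `1/j(qz)` does. -/
theorem LQ.al_inv_mem_rad_iff (_H : LQ A₀ ϖ₀ q al be w γ Ow' V x') (hc : ∀ a b, c a b ∈ A₀)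
    (hrel : Rel q c (al x')⁻¹ (be x')⁻¹) (hR : IsPt A₀ R) :
    (al x')⁻¹ ∈ rad R ↔ (be x')⁻¹ ∈ rad R :=
  ⟨fun h => hrel.mem_rad hR hc h, fun h => hrel.symm.mem_rad hR (fun a b => hc b a) h⟩

/-- **(B5)**, starting from `1/j(qz)`. -/
theorem LQ.cusp_be (H : LQ A₀ ϖ₀ q al be w γ Ow' V x') (hc : ∀ a b, c a b ∈ A₀)
    (h0 : A₀.valuation (c 0 0) = 1) (hrel : Rel q c (al x')⁻¹ (be x')⁻¹) (hR : IsPt A₀ R)
    (hs : (be x')⁻¹ ∈ rad R) :
    (RUnit R ((al x')⁻¹ ^ q / (be x')⁻¹) ∧ Away R (V 1)) ∨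
      (RUnit R ((be x')⁻¹ ^ q / (al x')⁻¹) ∧ Away R (V 0)) :=
  H.cusp_al hc h0 hrel hR ((H.al_inv_mem_rad_iff hc hrel hR).2 hs)

/-! ### (B6): the points of the two charts -/

/-- `1/j(z)` lies in the second chart. -/
theorem LQ.al_inv_mem_ch₂ (H : LQ A₀ ϖ₀ q al be w γ Ow' V x') :
    (al x')⁻¹ ∈ ch₂ A₀ al be x' := by
  rw [← map_inv₀]
  exact H.al_mem_ch₂ (self_mem_chart _)

theorem LQ.be_inv_mem_ch₂ (H : LQ A₀ ϖ₀ q al be w γ Ow' V x') :
    (be x')⁻¹ ∈ ch₂ A₀ al be x' := by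
  rw [← map_inv₀]
  exact H.be_mem_ch₂ (self_mem_chart _)

theorem xx_inv_eq (al be : F' →ₐ[K₀] F) (x' : F') :
    (xx al be x')⁻¹ = (al x')⁻¹ * (be x')⁻¹ := by
  rw [xx, mul_inv]

/-- If the coordinate `xx⁻¹` of the second chart vanishes at `R`, both `1/j(z)` and `1/j(qz)`
vanish at `R`. -/
theorem LQ.inv_mem_rad_of_xx (H : LQ A₀ ϖ₀ q al be w γ Ow' V x') (hc : ∀ a b, c a b ∈ A₀)
    (hrel : Rel q c (al x')⁻¹ (be x')⁻¹) (hR : IsPt A₀ R)
    (hle : ∀ y ∈ ch₂ A₀ al be x', y ∈ R) (hx : (xx al be x')⁻¹ ∈ rad R) :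
    (al x')⁻¹ ∈ rad R ∧ (be x')⁻¹ ∈ rad R := by
  have h1 : (al x')⁻¹ ∈ R := hle _ H.al_inv_mem_ch₂
  have h2 : (be x')⁻¹ ∈ R := hle _ H.be_inv_mem_ch₂
  rcases runit_or_mem_rad h1 with u1 | r1
  · rcases runit_or_mem_rad h2 with u2 | r2
    · exact absurd (by rw [xx_inv_eq]; exact u1.mul u2) hx.2
    · exact ⟨(H.al_inv_mem_rad_iff hc hrel hR).2 r2, r2⟩
  · exact ⟨r1, (H.al_inv_mem_rad_iff hc hrel hR).1 r1⟩

/-- **(B6).**  A point `R` of the second chart where the coordinate `xx⁻¹` vanishes is a cusp: it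
lies on one component only. -/
theorem LQ.cusp_ch₂ (H : LQ A₀ ϖ₀ q al be w γ Ow' V x') (hc : ∀ a b, c a b ∈ A₀)
    (h0 : A₀.valuation (c 0 0) = 1) (hrel : Rel q c (al x')⁻¹ (be x')⁻¹) (hR : IsPt A₀ R)
    (hle : ∀ y ∈ ch₂ A₀ al be x', y ∈ R) (hx : (xx al be x')⁻¹ ∈ rad R) :
    (RUnit R ((al x')⁻¹ ^ q / (be x')⁻¹) ∧ Away R (V 1)) ∨
      (RUnit R ((be x')⁻¹ ^ q / (al x')⁻¹) ∧ Away R (V 0)) :=
  H.cusp_al hc h0 hrel hR (H.inv_mem_rad_of_xx hc hrel hR hle hx).1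

/-- **(B6)**, the dichotomy for a point of the second chart: either `xx⁻¹` is a unit (and `R` is a
point of the first chart, by the overlap lemma of PT-A) or `R` is a cusp. -/
theorem LQ.ch₂_dichotomy (H : LQ A₀ ϖ₀ q al be w γ Ow' V x') (hc : ∀ a b, c a b ∈ A₀)
    (h0 : A₀.valuation (c 0 0) = 1) (hrel : Rel q c (al x')⁻¹ (be x')⁻¹) (hR : IsPt A₀ R)
    (hle : ∀ y ∈ ch₂ A₀ al be x', y ∈ R) :
    RUnit R (xx al be x') ∨ Away R (V 1) ∨ Away R (V 0) := by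
  rcases runit_or_mem_rad (hle _ (self_mem_chart _ : (xx al be x')⁻¹ ∈ ch₂ A₀ al be x')) with u | r
  · left
    have := u.inv
    rwa [inv_inv] at this
  · rcases H.cusp_ch₂ hc h0 hrel hR hle r with h | h
    · exact Or.inr (Or.inl h.2)
    · exact Or.inr (Or.inr h.2)

/-- A point which contains `xx` contains the first chart, in particular `j(z)` and `j(qz)`. -/
theorem LQ.ch₁_le_of_xx_mem (_H : LQ A₀ ϖ₀ q al be w γ Ow' V x') (hR : IsPt A₀ R)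
    (hx : xx al be x' ∈ R) : ∀ y ∈ ch₁ A₀ al be x', y ∈ R :=
  chart_le_of_isPt hR hx

/-- Membership in the first chart, tested with the coordinate `al x' = j(z)` on the generic
fibre (this is the form in which the eta units are known to be horizontal units). -/
theorem LQ.mem_ch₁_of_al (H : LQ A₀ ϖ₀ q al be w γ Ow' V x') {z : F} (hV : ∀ i, z ∈ V i)
    (hz : z ∈ chart (⊤ : Subring K₀) (al x')) : z ∈ ch₁ A₀ al be x' := by
  rw [← H.chart_al_eq]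
  exact (mem_chart_iff H.complete H.isMCoord_al z).2 ⟨hV, hz⟩

/-- **Eta units lie in the first chart**: `x y = ε ϖ₀`, `x` a unit of `V 0`, `y` a unit of `V 1`,
`x`, `y` regular on the generic fibre outside the cusps. -/
theorem LQ.eta_mem_ch₁ (H : LQ A₀ ϖ₀ q al be w γ Ow' V x') {x y : F} {ε : K₀}
    (hε : ε ∈ A₀) (hxy : x * y = algebraMap K₀ F (ε * ϖ₀))
    (hx0 : (V 0).valuation x = 1) (hy1 : (V 1).valuation y = 1)
    (hx : x ∈ chart (⊤ : Subring K₀) (al x')) (hy : y ∈ chart (⊤ : Subring K₀) (al x')) :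
    x ∈ ch₁ A₀ al be x' ∧ y ∈ ch₁ A₀ al be x' := by
  have hm : ∀ i, algebraMap K₀ F (ε * ϖ₀) ∈ V i := fun i =>
    H.complete.const_mem i _ (A₀.mul_mem _ _ hε H.complete.unif₀.mem)
  have hx1 : x ∈ V 1 := by
    have h1 := (V 1).valuation_le_one_iff _ |>.2 (hm 1)
    rw [← hxy, map_mul, hy1, mul_one] at h1
    exact ((V 1).valuation_le_one_iff _).1 h1
  have hy0 : y ∈ V 0 := by
    have h1 := (V 0).valuation_le_one_iff _ |>.2 (hm 0)
    rw [← hxy, map_mul, hx0, one_mul] at h1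
    exact ((V 0).valuation_le_one_iff _).1 h1
  refine ⟨H.mem_ch₁_of_al (fun i => ?_) hx, H.mem_ch₁_of_al (fun i => ?_) hy⟩
  · fin_cases i
    · exact ((V 0).valuation_le_one_iff _).1 hx0.le
    · exact hx1
  · fin_cases i
    · exact hy0
    · exact ((V 1).valuation_le_one_iff _).1 hy1.le

end Fermat.Agent.BAD.LevelQ
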