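/-
Project BAD, block LevelQ / LQ-PT, sub-block PT-CUSP, THE INSTANCE (helper225).

* `LQ.cuspQ`      : abstract: the hub `LQ` + the modular equation `Rel` give `CuspQ`
                    (the two cusp congruences are consequences of Kronecker's congruence `H.kron`);
* `Mod.cCusp`     : the coefficients of the modular equation of level `q` near the cusp;
* `Mod.rel_jK`    : `Rel q (cCusp K q) (al j)⁻¹ (be j)⁻¹` at level `M q`, over any field `K ⊇ ℚ`;
* `Mod.cuspQ_jK`  : `CuspQ A₀ q V (cCusp K q) (al j)⁻¹ (be j)⁻¹` from any hub with `x' = j`;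
* `Mod.exists_baseData_jK` : the base datum `D` (`q ≥ 5`) with `D.xK K = jK K M` and `BeInt D`.
-/
import Fermat.Agent.BAD.LevelQ.Pt.Cusp
import Fermat.Agent.BAD.LevelQ.Pt.B.Defs
import Fermat.Agent.BAD.LevelQ.Mod.Defs
import Fermat.Agent.BAD.LevelQ.Mod.PoleJ
import Fermat.Agent.BAD.Model.Input.Rel
import Fermat.Agent.Lib.ModEq.Field
import Fermat.Agent.S34.Nodal.Inst.Base

set_option autoImplicit false
set_option linter.unusedSectionVars false

noncomputable section

namespace Fermat.Agent.BAD.LevelQ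

open Polynomial IntermediateField Fermat.Agent.S18 Fermat.Agent.S36.BP Fermat.Agent.BAD.Model

section Abstract

variable {K₀ F' F : Type*} [Field K₀] [Field F'] [Field F] [Algebra K₀ F'] [Algebra K₀ F]
variable {A₀ : ValuationSubring K₀} {ϖ₀ : K₀} {q : ℕ} {al be : F' →ₐ[K₀] F} {w : F ≃ₐ[K₀] F}
  {γ : F' →+* F'} {Ow' : ValuationSubring F'} {V : Fin 2 → ValuationSubring F} {x' : F'}
  {c : ℕ → ℕ → K₀}

/-- The hub and the modular equation give the input `CuspQ` of the cusp analysis. -/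
theorem LQ.cuspQ (H : LQ A₀ ϖ₀ q al be w γ Ow' V x') (hc : ∀ a b, c a b ∈ A₀)
    (h0 : A₀.valuation (c 0 0) = 1) (hrel : Rel q c (al x')⁻¹ (be x')⁻¹) :
    CuspQ A₀ q V c (al x')⁻¹ (be x')⁻¹ where
  coeff_mem := hc
  coeff_unit := h0
  ne := inv_ne_zero H.al_x_ne_zero
  ne' := inv_ne_zero H.be_x_ne_zero
  rel := hrel
  cong0 := H.cusp_kron_zero
  cong1 := H.cusp_kron_one

end Abstract

namespace Mod

open ModularCurve Fermat.Agent.S24 Fermat.Agent.S18.Vert Fermat.Agent.S18.Descent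
  Fermat.Agent.S36.Mod

variable (K : Type*) [Field K] [Algebra ℚ K]

/-- The coefficients of the modular equation of level `q` in the coordinates `1/j(z)`, `1/j(qz)`. -/
def cCusp (q : ℕ) : ℕ → ℕ → K := fun a b => ((Lib.ModEq.cPhi q (q - a) (q - b) : ℤ) : K)

theorem cCusp_mem (A₀ : ValuationSubring K) (q a b : ℕ) : cCusp K q a b ∈ A₀ :=
  intCast_mem A₀ _

theorem cCusp_zero {q : ℕ} (hq : q.Prime) : cCusp K q 0 0 = -1 := by
  simp [cCusp, Lib.ModEq.cPhi_top q hq]

theorem valuation_cCusp_zero (A₀ : ValuationSubring K) {q : ℕ} (hq : q.Prime) :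
    A₀.valuation (cCusp K q 0 0) = 1 := by
  rw [cCusp_zero K hq, Valuation.map_neg, map_one]

variable (M q : ℕ) [NeZero M] [NeZero q]

theorem jK_eq_JK : jK K M = JK K M 1 (one_dvd M) := by
  apply Subtype.ext
  show coeffEmb K jq = Js K 1
  rw [Js, qExpand_one_apply]

theorem al_jK : al K M q (jK K M) = JK K (M * q) 1 (one_dvd _) := by
  rw [jK_eq_JK, al, al_JK]

theorem be_jK :
    be K M q (jK K M) = JK K (M * q) (1 * q) (by rw [one_mul]; exact dvd_mul_left q M) := by
  rw [jK_eq_JK, be, be_JK M q 1 (one_dvd M) (by rw [mul_one]; exact dvd_mul_left q M)]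
  exact JK_congr K _ (by ring) _ _

theorem al_jK_ne_zero : al K M q (jK K M) ≠ 0 := by
  rw [Ne, map_eq_zero]
  intro h
  have h1 := congrArg (fun f : FK K M => (f : LaurentSeries K)) h
  have h2 : coeffEmb K jq = 0 := h1
  have h3 : jq = 0 := by
    have hinj : Function.Injective (coeffEmb K) := (coeffEmb K).injective
    exact hinj (by rw [h2, map_zero])
  have h5 := coeff_jq_pow_self 1
  rw [pow_one, h3] at h5
  simp at h5

theorem be_jK_ne_zero : be K M q (jK K M) ≠ 0 := by
  have h := al_jK_ne_zero K M q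
  rw [Ne, map_eq_zero] at h ⊢
  exact h

/-- **The modular equation near the cusps**, at level `M q`. -/
theorem rel_jK (hq : q.Prime) :
    Rel q (cCusp K q) (al K M q (jK K M))⁻¹ (be K M q (jK K M))⁻¹ := by
  refine rel_of_modEq (c' := fun a b => ((Lib.ModEq.cPhi q a b : ℤ) : K))
    (al_jK_ne_zero K M q) (be_jK_ne_zero K M q) ?_
  have h := Lib.ModEq.modEq_JK K q hq (M * q) 1 (one_dvd _)
    (by rw [one_mul]; exact dvd_mul_left q M)
  rw [al_jK, be_jK]
  simpa only [map_intCast] using h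

variable {K M q}

/-- **The instance of `CuspQ`**: any hub at level `M q` whose coordinate is `j`. -/
theorem cuspQ_jK {A₀ : ValuationSubring K} {ϖ₀ : K} {w : FK K (M * q) ≃ₐ[K] FK K (M * q)}
    {γ : FK K M →+* FK K M} {Ow' : ValuationSubring (FK K M)}
    {V : Fin 2 → ValuationSubring (FK K (M * q))}
    (H : LQ A₀ ϖ₀ q (al K M q) (be K M q) w γ Ow' V (jK K M)) :
    CuspQ A₀ q V (cCusp K q) (al K M q (jK K M))⁻¹ (be K M q (jK K M))⁻¹ :=
  H.cuspQ (cCusp_mem K A₀ q) (valuation_cCusp_zero K A₀ H.prime) (rel_jK K M q H.prime)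

universe u

/-- The base datum `j` (`q ≥ 5`), in explicit form. -/
theorem exists_baseData_jK (hq : q.Prime) (h5 : 5 ≤ q) :
    ∃ D : BaseData M q, BeInt D ∧ D.xK Kbar = jF M ∧
      ∀ (L : Type u) [Field L] [Algebra ℚ L], D.xK L = jK L M := by
  obtain ⟨D, hX, hD⟩ := S34.Nodal.Inst.Base.exists_baseData_j M q hq h5
  refine ⟨D, beInt_j D hD, hD, fun L _ _ => ?_⟩
  apply Subtype.ext
  show coeffEmb L (coeffMap (Int.castRingHom ℚ) D.X) = coeffEmb L jq
  rw [hX, S18.Base.coeffMap_mkX_jNum]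

end Mod

end Fermat.Agent.BAD.LevelQ
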