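/-
Project BAD, block LevelQ, LQ-PT / PT-A (architect helper139), node LQP-A5:
a closed point of the chart of `z⁻¹` at which `z⁻¹` is a unit is a closed point of the chart of `z`.
No hypothesis on the residue field of `A₀` (unlike BAD/Model/Pre/Overlap.lean, which is the model
for everything except the maximality).

SKETCH.  R = locSub B' 𝔫, B' = chart z⁻¹, B = chart z.
(1) B ⊆ R: R contains the constants of A₀ and z, and is integrally closed
    (`mem_locSub_of_isIntegral`, `mem_chart_of_isIntegral_chart`); cf. `chart_le_of_isPt`.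
(2) 𝔪 := {b : B | (b : F) ∈ rad R} is a prime ideal (`add_mem_rad_locSub`, `mul_mem_rad_locSub`,
    `rUnit_locSub_iff` / `RUnit.mul`), contains ϖ₀ (`coe_mem_rad_locSub`).
(3) 𝔪 is maximal: `exists_isPrimPoly_of_isMaximal 𝔫` gives p primitive with p(z⁻¹) ∈ 𝔫;
    `CoordAux.aeval_reverse` (Abs/Coord.lean): p.reverse(z) = p(z⁻¹) z^deg ∈ rad R; p.reverse is
    primitive (`coeff_reverse`, `revAt_invol`, `revAt_le`); conclude by `isMaximal_of_isPrimPoly`.
(4) locSub B 𝔪 = R: as in `exists_point_of_isPt` + `PreModel.exists_point_of_inv_notMem`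
    (`chart_overlap`, S18/Chart/Overlap.lean; z is a unit of R).
-/
import Fermat.Agent.BAD.LevelQ.Pt.Defs
import Fermat.Agent.BAD.LevelQ.Pt.Max
import Fermat.Agent.BAD.LevelQ.Pt.MaxConv
import Fermat.Agent.BAD.LevelQ.Abs.Coord
import Fermat.Agent.S18.Chart.Const
import Fermat.Agent.S18.Chart.Overlap
import Fermat.Agent.S36.BP.Loc.Basic
import Fermat.Agent.S36.BP.Rad

set_option autoImplicit false
set_option linter.style.haveILetI false

noncomputable section

namespace Fermat.Agent.BAD.LevelQ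

open Polynomial IntermediateField Fermat.Agent.S18 Fermat.Agent.S36.BP Fermat.Agent.BAD.Model

variable {K₀ F : Type*} [Field K₀] [Field F] [Algebra K₀ F]
variable {A₀ : ValuationSubring K₀} {ϖ₀ : K₀} {ι : Type*} {V : ι → ValuationSubring F} {z : F}

/-- the reverse of a primitive polynomial is primitive -/
theorem Overlap.isPrimPoly_reverse {p : K₀[X]} (hp : IsPrimPoly A₀ p) : IsPrimPoly A₀ p.reverse := by
  refine ⟨fun i => by rw [coeff_reverse]; exact hp.1 _, ?_⟩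
  obtain ⟨i, hi⟩ := hp.2
  refine ⟨revAt p.natDegree i, ?_⟩
  rw [coeff_reverse, revAt_invol]
  exact hi

/-- the trace on the subring `B ⊆ locSub B' 𝔫` of the maximal ideal of `locSub B' 𝔫`. -/
def Overlap.traceIdeal {B' : Subring F} (𝔫 : Ideal B') [𝔫.IsPrime] (B : Subring F)
    (hB : ∀ b ∈ B, b ∈ locSub B' 𝔫) : Ideal B where
  carrier := {b | (b : F) ∈ rad (locSub B' 𝔫)}
  add_mem' := fun ha hb => add_mem_rad_locSub ha hb
  zero_mem' := zero_mem_rad _
  smul_mem' := fun c _ hb => mul_mem_rad_locSub (hB _ c.2) hb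

theorem Overlap.mem_traceIdeal {B' : Subring F} (𝔫 : Ideal B') [𝔫.IsPrime] (B : Subring F)
    (hB : ∀ b ∈ B, b ∈ locSub B' 𝔫) (b : B) :
    b ∈ Overlap.traceIdeal 𝔫 B hB ↔ (b : F) ∈ rad (locSub B' 𝔫) := Iff.rfl

theorem Overlap.traceIdeal_isPrime {B' : Subring F} (𝔫 : Ideal B') [𝔫.IsPrime] (B : Subring F)
    (hB : ∀ b ∈ B, b ∈ locSub B' 𝔫) : (Overlap.traceIdeal 𝔫 B hB).IsPrime := by
  refine ⟨fun h => ?_, fun {a b} hab => ?_⟩
  · have h1 : (1 : B) ∈ Overlap.traceIdeal 𝔫 B hB := by rw [h]; trivial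
    rw [Overlap.mem_traceIdeal] at h1
    exact h1.2 (RUnit.one _)
  · rw [Overlap.mem_traceIdeal] at hab ⊢
    rw [Overlap.mem_traceIdeal]
    rcases runit_or_mem_rad (hB _ a.2) with ha | ha
    · rcases runit_or_mem_rad (hB _ b.2) with hb | hb
      · exact absurd (ha.mul hb) hab.2
      · exact Or.inr hb
    · exact Or.inl ha

theorem isClosedPt_of_inv (h₀ : IsUnif A₀ ϖ₀) (hz : z ≠ 0) {R : Subring F}
    (hR : IsClosedPt (algebraMap K₀ F ϖ₀) (chart A₀.toSubring z⁻¹) R) (hzR : z ∈ R) :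
    IsClosedPt (algebraMap K₀ F ϖ₀) (chart A₀.toSubring z) R := by
  obtain ⟨𝔫, h𝔫, hϖ, rfl⟩ := hR
  haveI := h𝔫
  have hzi0 : z⁻¹ ≠ 0 := inv_ne_zero hz
  -- constants
  have hc : ∀ a ∈ A₀, algebraMap K₀ F a ∈ locSub (chart A₀.toSubring z⁻¹) 𝔫 := fun a ha =>
    le_locSub (polyRing_le_chart _ _ (Overlap.algebraMap_mem_polyRing A₀.toSubring z⁻¹ ha))
  -- (1) the chart of `z` lies in `R`
  have hB : ∀ b ∈ chart A₀.toSubring z, b ∈ locSub (chart A₀.toSubring z⁻¹) 𝔫 := by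
    intro b hb
    rw [mem_chart_iff_isIntegral] at hb
    have hp : ∀ r : polyRing A₀.toSubring z, (r : F) ∈ locSub (chart A₀.toSubring z⁻¹) 𝔫 := by
      rintro ⟨r, hr⟩
      rw [mem_polyRing_iff] at hr
      obtain ⟨p, hp, rfl⟩ := hr
      change Polynomial.aeval z p ∈ locSub (chart A₀.toSubring z⁻¹) 𝔫
      rw [Polynomial.aeval_eq_sum_range]
      refine Subring.sum_mem _ fun i _ => ?_
      rw [Algebra.smul_def]
      exact Subring.mul_mem _ (hc _ (hp i)) (Subring.pow_mem _ hzR i)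
    exact mem_locSub_of_isIntegral (mem_chart_of_isIntegral_chart A₀.toSubring z⁻¹) b
      (isIntegral_of_forall_exists_algebraMap (fun r => ⟨⟨_, hp r⟩, rfl⟩) hb)
  have hzu : RUnit (locSub (chart A₀.toSubring z⁻¹) 𝔫) z :=
    ⟨hz, hzR, le_locSub (self_mem_chart _)⟩
  -- (2) the prime
  haveI hprime := Overlap.traceIdeal_isPrime 𝔫 (chart A₀.toSubring z) hB
  have hϖ𝔪 : ∀ ϖB : chart A₀.toSubring z, (ϖB : F) = algebraMap K₀ F ϖ₀ →
      ϖB ∈ Overlap.traceIdeal 𝔫 (chart A₀.toSubring z) hB := by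
    intro ϖB h
    rw [Overlap.mem_traceIdeal, h]
    have hmem : algebraMap K₀ F ϖ₀ ∈ chart A₀.toSubring z⁻¹ :=
      polyRing_le_chart _ _ (Overlap.algebraMap_mem_polyRing A₀.toSubring z⁻¹ h₀.mem)
    exact coe_mem_rad_locSub (hϖ ⟨_, hmem⟩ rfl)
  -- (3) maximality
  have hmax : (Overlap.traceIdeal 𝔫 (chart A₀.toSubring z) hB).IsMaximal := by
    obtain ⟨p, hp, hpz⟩ := exists_isPrimPoly_of_isMaximal 𝔫
    refine isMaximal_of_isPrimPoly h₀ _ hϖ𝔪 p.reverse (Overlap.isPrimPoly_reverse hp) ?_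
    intro b hb
    rw [Overlap.mem_traceIdeal, hb, CoordAux.aeval_reverse hz, mul_comm]
    refine mul_mem_rad_locSub (Subring.pow_mem _ hzR _) ?_
    exact coe_mem_rad_locSub (hpz ⟨_, ChartBasic.aeval_mem_chart p hp.1⟩ rfl)
  -- (4) the local rings agree
  refine ⟨Overlap.traceIdeal 𝔫 (chart A₀.toSubring z) hB, hmax, hϖ𝔪, ?_⟩
  apply le_antisymm
  · rintro y ⟨a, s, hs, e⟩
    rw [Overlap.mem_traceIdeal] at hs
    have hsu : RUnit (locSub (chart A₀.toSubring z⁻¹) 𝔫) (s : F) :=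
      (runit_or_mem_rad (hB _ s.2)).resolve_right hs
    have : y = (a : F) * (s : F)⁻¹ := by
      rw [← e, mul_assoc, mul_inv_cancel₀ hsu.ne_zero, mul_one]
    rw [this]
    exact Subring.mul_mem _ (hB _ a.2) hsu.inv_mem
  · rintro y ⟨a, s, hs, e⟩
    obtain ⟨N₁, h1⟩ := chart_overlap A₀.toSubring hzi0 (a : F) a.2
    obtain ⟨N₂, h2⟩ := chart_overlap A₀.toSubring hzi0 (s : F) s.2
    rw [inv_inv] at h1 h2
    have hzB : z ∈ chart A₀.toSubring z := self_mem_chart _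
    have h1' : z ^ (N₁ + N₂) * (a : F) ∈ chart A₀.toSubring z := by
      have : z ^ (N₁ + N₂) * (a : F) = z ^ N₂ * (z ^ N₁ * (a : F)) := by ring
      rw [this]
      exact Subring.mul_mem _ (Subring.pow_mem _ hzB _) h1
    have h2' : z ^ (N₁ + N₂) * (s : F) ∈ chart A₀.toSubring z := by
      have : z ^ (N₁ + N₂) * (s : F) = z ^ N₁ * (z ^ N₂ * (s : F)) := by ring
      rw [this]
      exact Subring.mul_mem _ (Subring.pow_mem _ hzB _) h2
    have hsu : RUnit (locSub (chart A₀.toSubring z⁻¹) 𝔫) (s : F) :=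
      ⟨coe_ne_zero_of_notMem hs, le_locSub s.2, inv_mem_locSub hs⟩
    refine ⟨⟨_, h1'⟩, ⟨_, h2'⟩, fun h => ?_, ?_⟩
    · rw [Overlap.mem_traceIdeal] at h
      exact h.2 ((hzu.pow _).mul hsu)
    · change y * (z ^ (N₁ + N₂) * (s : F)) = z ^ (N₁ + N₂) * (a : F)
      rw [← e]
      ring

end Fermat.Agent.BAD.LevelQ
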